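/-
S55 (Poitou–Tate duality for Ш¹/Ш²): shared definitions and top-level interfaces.
Owner: helper49 (cluster T, coordinator helper47).  Plan: NOTES/plan/S55.md.

Notation: `G = Gal(Q̄/ℚ)`, `M` a finite-dimensional `𝔽_p[G]`-module with open stabilisers,
unramified outside `S ∋ p`, `M' = M.dualTwist (cycloChar p) = Hom(M, μ_p)`.
`sha₁ S M'` = classes of `H¹(G, M')` of level `S` which are locally trivial at `v ∈ S ∪ {∞}`;
`sha₂ S M`  = kernel of `H²_S(G, M) → ∏_{v ∈ S ∪ {∞}} H²_cts(G_v, M)`.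
-/
import Fermat.Prelude.Def_GroupCohomology_ContinuousUnramified

set_option autoImplicit false

open CategoryTheory Module groupCohomology ExtCitation

namespace Fermat.Agent.S55

/-- `G = Gal(Q̄/ℚ)`. -/
abbrev GQ : Type := AlgebraicClosure ℚ ≃ₐ[ℚ] AlgebraicClosure ℚ

/-- The hypotheses of S55 on `(p, S, M)`, bundled. -/
structure Hyp (p : ℕ) [Fact p.Prime] (S : Finset Nat.Primes) (M : Rep (ZMod p) GQ) : Prop where
  hp2 : p ≠ 2
  hpS : pPrime p ∈ S
  fin : FiniteDimensional (ZMod p) M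
  hsm : ∀ m : M, ∃ F : IntermediateField ℚ (AlgebraicClosure ℚ), FiniteDimensional ℚ F ∧
      ∀ s ∈ F.fixingSubgroup, M.ρ s m = m
  hMur : ∀ q : Nat.Primes, q ∉ S → ∀ A : ValuationSubring (AlgebraicClosure ℚ),
      A.LiesOverPrime (q : ℕ) → ∀ g ∈ A.inertiaSubgroupIn ℚ, M.ρ g = 1

/-- (F1) `Ш¹_S(M')` is finite-dimensional. -/
def Stmt_sha1_finite : Prop :=
  ∀ (p : ℕ) [Fact p.Prime] (S : Finset Nat.Primes) (M : Rep (ZMod p) GQ), Hyp p S M →
    Module.Finite (ZMod p) (sha₁ S (M.dualTwist (cycloChar p)))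

/-- (F2) `Ш²_S(M)` is finite-dimensional. -/
def Stmt_sha2_finite : Prop :=
  ∀ (p : ℕ) [Fact p.Prime] (S : Finset Nat.Primes) (M : Rep (ZMod p) GQ), Hyp p S M →
    Module.Finite (ZMod p) (sha₂ S M)

/-- (PT) `dim Ш¹_S(M') = dim Ш²_S(M)`. -/
def Stmt_sha_finrank_eq : Prop :=
  ∀ (p : ℕ) [Fact p.Prime] (S : Finset Nat.Primes) (M : Rep (ZMod p) GQ), Hyp p S M →
    Module.finrank (ZMod p) (sha₁ S (M.dualTwist (cycloChar p))) =
      Module.finrank (ZMod p) (sha₂ S M)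

/-- (PT') an injective linear map `Ш²_S(M) → (Ш¹_S(M'))^*` (half of Poitou–Tate). -/
def Stmt_sha2_inj_dual : Prop :=
  ∀ (p : ℕ) [Fact p.Prime] (S : Finset Nat.Primes) (M : Rep (ZMod p) GQ), Hyp p S M →
    ∃ f : sha₂ S M →ₗ[ZMod p] Module.Dual (ZMod p) (sha₁ S (M.dualTwist (cycloChar p))),
      Function.Injective f

/-- (PT'') an injective linear map `Ш¹_S(M') → (Ш²_S(M))^*` (other half of Poitou–Tate). -/
def Stmt_sha1_inj_dual : Prop :=
  ∀ (p : ℕ) [Fact p.Prime] (S : Finset Nat.Primes) (M : Rep (ZMod p) GQ), Hyp p S M →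
    ∃ f : sha₁ S (M.dualTwist (cycloChar p)) →ₗ[ZMod p] Module.Dual (ZMod p) (sha₂ S M),
      Function.Injective f

end Fermat.Agent.S55
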