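/-
S55 (Poitou–Tate), bridge lemmas BR1 (`Stmt_lev`) and BR2 (`Stmt_levChar`).  helper48.

* BR1: the hypotheses of the frozen statement give a finite extension `F/ℚ`, unramified outside
  `S`, whose absolute Galois group acts trivially on `M` (`F` = fixed field of `ker ρ`).
* BR2: the mod `p` cyclotomic character has level `S` when `p ∈ S` (`F = ℚ(ζ_p)`).
-/
import Fermat.Agent.S55.Coh.Stmts
import Fermat.Agent.S05.H95_Inertia

set_option autoImplicit false

open CategoryTheory Module groupCohomology ExtCitation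

namespace Fermat.Agent.S55.H48

theorem qbar_isAlgebraic : Algebra.IsAlgebraic ℚ (AlgebraicClosure ℚ) :=
  AlgebraicClosure.isAlgebraic ℚ

theorem qbar_isAlgClosure : IsAlgClosure ℚ (AlgebraicClosure ℚ) :=
  letI := qbar_isAlgebraic
  ⟨inferInstance, inferInstance⟩

theorem qbar_isGalois : IsGalois ℚ (AlgebraicClosure ℚ) :=
  letI := qbar_isAlgebraic
  letI := qbar_isAlgClosure
  inferInstance

/-! ### BR1 -/

/-- **BR1**: the hypotheses of the frozen statement give level `S`. -/
theorem stmt_lev : Stmt_lev := by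
  intro p _ S M hM
  haveI := hM.fin
  haveI := qbar_isGalois
  -- a finite extension fixing a basis
  choose F hF hFfix using hM.hsm
  let b := Module.finBasis (ZMod p) M
  let F₀ : IntermediateField ℚ (AlgebraicClosure ℚ) := ⨆ i, F (b i)
  haveI : ∀ i, FiniteDimensional ℚ (F (b i)) := fun i => hF (b i)
  haveI : FiniteDimensional ℚ F₀ := IntermediateField.finiteDimensional_iSup_of_finite
  have hker : ∀ s ∈ F₀.fixingSubgroup, M.ρ s = 1 := by
    intro s hs
    apply b.ext
    intro i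
    have hsi : s ∈ (F (b i)).fixingSubgroup :=
      IntermediateField.fixingSubgroup_antitone (le_iSup (fun i => F (b i)) i) hs
    exact hFfix (b i) s hsi
  -- the kernel of `ρ` is an open, hence closed, subgroup
  let H : Subgroup GQ := M.ρ.ker
  have hle : F₀.fixingSubgroup ≤ H := fun s hs => MonoidHom.mem_ker.mpr (hker s hs)
  have hopen : IsOpen (H : Set GQ) := Subgroup.isOpen_mono hle F₀.fixingSubgroup_isOpen
  have hclosed : IsClosed (H : Set GQ) := (⟨H, hopen⟩ : OpenSubgroup GQ).isClosed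
  let Hc : ClosedSubgroup GQ := ⟨H, hclosed⟩
  have hfix : (IntermediateField.fixedField H).fixingSubgroup = H :=
    InfiniteGalois.fixingSubgroup_fixedField Hc
  refine ⟨IntermediateField.fixedField H, ⟨?_, ?_⟩, ?_⟩
  · rw [← InfiniteGalois.isOpen_iff_finite, hfix]
    exact hopen
  · intro q hq A hA g hg
    rw [hfix]
    exact MonoidHom.mem_ker.mpr (hM.hMur q hq A hA g hg)
  · intro s hs m
    rw [hfix] at hs
    have h1 : M.ρ s = 1 := MonoidHom.mem_ker.mp hs
    rw [h1]
    rfl

/-! ### BR2 -/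

/-- There is a primitive `p`-th root of unity in `ℚ̄`. -/
theorem exists_primitiveRoot (p : ℕ) [Fact p.Prime] :
    ∃ ζ₀ : AlgebraicClosure ℚ, IsPrimitiveRoot ζ₀ p := by
  haveI : NeZero p := ⟨(Fact.out : p.Prime).ne_zero⟩
  haveI : NeZero (p : AlgebraicClosure ℚ) := ⟨Nat.cast_ne_zero.mpr (NeZero.ne p)⟩
  exact HasEnoughRootsOfUnity.exists_primitiveRoot (AlgebraicClosure ℚ) p

/-- An automorphism fixing all `p`-th roots of unity has trivial cyclotomic character.
(Same proof as helper47's `S56.H47.cycloChar_eq_one_of_fix`, repeated here to keep the import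
closure of S55 small.) -/
theorem cycloChar_eq_one_of_fix (p : ℕ) [Fact p.Prime] (σ : GQ)
    (h : ∀ t : AlgebraicClosure ℚ, t ^ p = 1 → σ t = t) : cycloChar p σ = 1 := by
  haveI : NeZero p := ⟨(Fact.out : p.Prime).ne_zero⟩
  haveI : Fact (1 < p) := ⟨(Fact.out : p.Prime).one_lt⟩
  have h1 := modularCyclotomicCharacter.unique (L := AlgebraicClosure ℚ)
    (card_rootsOfUnity_eq_self p) (σ : AlgebraicClosure ℚ ≃+* AlgebraicClosure ℚ)
    (c := (1 : ZMod p)) (fun t ht => by
      rw [ZMod.val_one, pow_one]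
      have ht' : (t : AlgebraicClosure ℚ) ^ p = 1 := by
        have := (mem_rootsOfUnity p t).1 ht
        rw [← Units.val_pow_eq_pow_val, this, Units.val_one]
      exact h t ht')
  refine Units.ext ?_
  rw [Units.val_one]
  exact h1.symm

/-- Inertia at `q ≠ p` fixes the `p`-th roots of unity.
(Same proof as helper47's `S56.H47.inertia_fix_root`.) -/
theorem inertia_fix_root {p q : ℕ} (hp : p.Prime) (hq : q.Prime) (hpq : q ≠ p)
    (A : ValuationSubring (AlgebraicClosure ℚ)) (hA : A.LiesOverPrime q) (σ : GQ)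
    (hσ : σ ∈ A.inertiaSubgroupIn ℚ) (t : AlgebraicClosure ℚ) (ht : t ^ p = 1) : σ t = t := by
  by_contra hne
  have hvt : A.valuation t = 1 := by
    have h1 : A.valuation t ^ p = 1 := by rw [← map_pow, ht, map_one]
    exact (pow_eq_one_iff_of_nonneg zero_le hp.ne_zero).1 h1
  have htA : t ∈ A := (A.valuation_le_one_iff t).1 hvt.le
  have ht0 : t ≠ 0 := by
    rintro rfl
    rw [zero_pow hp.ne_zero] at ht
    exact zero_ne_one ht
  have h1 : σ t - t ∈ A.nonunits := S05.H95.sub_mem_nonunits_of_mem_inertia A hσ htA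
  have hz : (σ t * t⁻¹) ^ p = 1 := by
    rw [mul_pow, ← map_pow, ht, map_one, inv_pow, ht, inv_one, mul_one]
  have hz1 : σ t * t⁻¹ ≠ 1 := by
    intro h
    apply hne
    have := congrArg (· * t) h
    simpa [ht0] using this
  have hzprim : IsPrimitiveRoot (σ t * t⁻¹) p := by
    haveI : Fact p.Prime := ⟨hp⟩
    have ho : orderOf (σ t * t⁻¹) = p := orderOf_eq_prime hz hz1
    rw [← ho]
    exact IsPrimitiveRoot.orderOf _
  have hsum : ∑ i ∈ Finset.range p, (σ t * t⁻¹) ^ i = 0 := hzprim.geom_sum_eq_zero hp.one_lt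
  have hv : A.valuation (σ t * t⁻¹ - 1) < 1 := by
    have h2 : σ t * t⁻¹ - 1 = (σ t - t) * t⁻¹ := by
      field_simp
    rw [h2, map_mul, map_inv₀, hvt, inv_one, mul_one]
    exact (A.mem_nonunits_iff).1 h1
  have hzA : σ t * t⁻¹ ∈ A := by
    have : σ t * t⁻¹ = (σ t * t⁻¹ - 1) + 1 := by ring
    rw [this]
    exact A.add_mem _ _ ((A.valuation_le_one_iff _).1 hv.le) A.one_mem
  have hvi : ∀ i : ℕ, A.valuation ((σ t * t⁻¹) ^ i - 1) < 1 := by
    intro i
    have h3 : (σ t * t⁻¹) ^ i - 1 = (σ t * t⁻¹ - 1) * ∑ j ∈ Finset.range i, (σ t * t⁻¹) ^ j :=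
      (mul_geom_sum _ _).symm
    rw [h3, map_mul]
    have h4 : A.valuation (∑ j ∈ Finset.range i, (σ t * t⁻¹) ^ j) ≤ 1 :=
      (A.valuation_le_one_iff _).2 (A.sum_mem fun j _ => A.pow_mem hzA j)
    calc A.valuation (σ t * t⁻¹ - 1) * A.valuation (∑ j ∈ Finset.range i, (σ t * t⁻¹) ^ j)
        ≤ A.valuation (σ t * t⁻¹ - 1) := mul_le_of_le_one_right' h4
      _ < 1 := hv
  have hvp : A.valuation ((p : ℕ) : AlgebraicClosure ℚ) < 1 := by
    have h5 : ((p : ℕ) : AlgebraicClosure ℚ) =
        - ∑ i ∈ Finset.range p, ((σ t * t⁻¹) ^ i - 1) := by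
      rw [Finset.sum_sub_distrib, hsum]
      simp
    rw [h5, Valuation.map_neg]
    exact Valuation.map_sum_lt _ one_ne_zero (fun i _ => hvi i)
  have hvq : A.valuation ((q : ℕ) : AlgebraicClosure ℚ) < 1 := (A.mem_nonunits_iff).1 hA
  have hcop : Nat.Coprime p q := (Nat.coprime_primes hp hq).2 (Ne.symm hpq)
  have hbez : (p : ℤ) * Int.gcdA p q + (q : ℤ) * Int.gcdB p q = 1 := by
    have := Int.gcd_eq_gcd_ab p q
    rw [← this]
    exact_mod_cast hcop
  have hint : ∀ a : ℤ, A.valuation ((a : ℤ) : AlgebraicClosure ℚ) ≤ 1 := fun a =>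
    (A.valuation_le_one_iff _).2 (intCast_mem A a)
  have h6 : (1 : AlgebraicClosure ℚ) =
      ((p : ℕ) : AlgebraicClosure ℚ) * ((Int.gcdA p q : ℤ) : AlgebraicClosure ℚ) +
        ((q : ℕ) : AlgebraicClosure ℚ) * ((Int.gcdB p q : ℤ) : AlgebraicClosure ℚ) := by
    exact_mod_cast hbez.symm
  have h7 : A.valuation (1 : AlgebraicClosure ℚ) < 1 := by
    rw [h6]
    refine lt_of_le_of_lt (Valuation.map_add _ _ _) (max_lt ?_ ?_)
    · rw [map_mul]
      exact lt_of_le_of_lt (mul_le_of_le_one_right' (hint _)) hvp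
    · rw [map_mul]
      exact lt_of_le_of_lt (mul_le_of_le_one_right' (hint _)) hvq
  rw [map_one] at h7
  exact lt_irrefl _ h7

/-- An automorphism fixing `ζ` fixes `ℚ(ζ)` pointwise. -/
theorem fixes_adjoin (g : GQ) (ζ : AlgebraicClosure ℚ) (h : g ζ = ζ) :
    ∀ x ∈ IntermediateField.adjoin ℚ ({ζ} : Set (AlgebraicClosure ℚ)), g x = x := by
  intro x hx
  induction hx using IntermediateField.adjoin_induction with
  | mem y hy =>
    rw [Set.mem_singleton_iff] at hy
    rw [hy, h]
  | algebraMap r => exact g.commutes r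
  | add x y _ _ hx hy => rw [map_add, hx, hy]
  | inv x _ hx => rw [map_inv₀, hx]
  | mul x y _ _ hx hy => rw [map_mul, hx, hy]

/-- **BR2**: the mod `p` cyclotomic character has level `S` when `p ∈ S`. -/
theorem stmt_levChar : Stmt_levChar := by
  intro p _ S hpS
  have hp : p.Prime := Fact.out
  haveI := qbar_isAlgebraic
  obtain ⟨ζ, hζ⟩ := exists_primitiveRoot p
  refine ⟨IntermediateField.adjoin ℚ ({ζ} : Set (AlgebraicClosure ℚ)), ⟨?_, ?_⟩, ?_⟩
  · exact IntermediateField.adjoin.finiteDimensional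
      (Algebra.IsIntegral.isIntegral (R := ℚ) ζ)
  · intro q hq A hA g hg
    have hqp : (q : ℕ) ≠ p := by
      intro h
      apply hq
      have : q = pPrime p := Subtype.ext h
      rw [this]
      exact hpS
    have hfix : g ζ = ζ := inertia_fix_root hp q.2 hqp A hA g hg ζ hζ.pow_eq_one
    rw [IntermediateField.mem_fixingSubgroup_iff]
    exact fixes_adjoin g ζ hfix
  · intro s hs
    rw [IntermediateField.mem_fixingSubgroup_iff] at hs
    have hsζ : s ζ = ζ := hs ζ (IntermediateField.mem_adjoin_simple_self ℚ ζ)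
    apply cycloChar_eq_one_of_fix
    intro t ht
    haveI : NeZero p := ⟨hp.ne_zero⟩
    obtain ⟨j, -, rfl⟩ := hζ.eq_pow_of_pow_eq_one ht
    rw [map_pow, hsζ]

end Fermat.Agent.S55.H48
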