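/-
S55 (Poitou–Tate), lemma NC: the normal closure of a field of level `S` has level `S`.  helper48.

* `conj_mem_inertia` : `g ∈ I_A → σ⁻¹ g σ ∈ I_{σ⁻¹ A}`.
* `exists_normal_level` : every `F` unramified outside `S` lies in an `F'` unramified outside `S`
  with `Gal(ℚ̄/F')` normal in `Gal(ℚ̄/ℚ)`.
-/
import Fermat.Agent.S55.H48_Lev
import Fermat.Agent.Lib.InertiaBridge

set_option autoImplicit false

open scoped Pointwise

namespace Fermat.Agent.S55.H48

open Fermat.Agent.Lib.InertiaBridge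

section conj

variable {K L : Type*} [Field K] [Field L] [Algebra K L]

theorem mem_inv_smul_iff (A : ValuationSubring L) (σ : L ≃ₐ[K] L) (x : L) :
    x ∈ σ⁻¹ • A ↔ σ x ∈ A := by
  rw [ValuationSubring.mem_pointwise_smul_iff_inv_smul_mem, inv_inv]
  rfl

theorem mem_nonunits_inv_smul_iff (A : ValuationSubring L) (σ : L ≃ₐ[K] L) (x : L) :
    x ∈ (σ⁻¹ • A).nonunits ↔ σ x ∈ A.nonunits := by
  rw [ValuationSubring.mem_nonunits_iff_or, ValuationSubring.mem_nonunits_iff_or,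
    mem_inv_smul_iff, map_inv₀]
  have h1 : σ x = 0 ↔ x = 0 := by
    constructor
    · intro hx
      have := congrArg σ.symm hx
      simpa using this
    · intro hx
      rw [hx, map_zero]
  rw [h1]

/-- Conjugating an element of the inertia group of `A` by `σ` gives an element of the inertia
group of `σ⁻¹ A`. -/
theorem conj_mem_inertia (A : ValuationSubring L) (σ g : L ≃ₐ[K] L)
    (hg : g ∈ A.inertiaSubgroupIn K) : σ⁻¹ * g * σ ∈ (σ⁻¹ • A).inertiaSubgroupIn K := by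
  rw [mem_inertiaSubgroupIn_iff_forall] at hg ⊢
  obtain ⟨hdec, hval⟩ := hg
  have hdec' := (mem_decompositionSubgroup_iff_forall A g).mp hdec
  have key : ∀ a : L, σ ((σ⁻¹ * g * σ) a) = g (σ a) := by
    intro a
    show σ (σ⁻¹ (g (σ a))) = g (σ a)
    exact AlgEquiv.apply_symm_apply σ _
  refine ⟨?_, fun a ha => ?_⟩
  · rw [mem_decompositionSubgroup_iff_forall]
    intro a
    rw [mem_inv_smul_iff, mem_inv_smul_iff, key]
    exact hdec' (σ a)
  · rw [← ValuationSubring.mem_nonunits_iff, mem_nonunits_inv_smul_iff, map_sub, key,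
      ValuationSubring.mem_nonunits_iff]
    exact hval (σ a) ((mem_inv_smul_iff A σ a).mp ha)

theorem liesOverPrime_inv_smul (A : ValuationSubring L) (σ : L ≃ₐ[K] L) (q : ℕ)
    (hA : A.LiesOverPrime q) : (σ⁻¹ • A).LiesOverPrime q := by
  show (q : L) ∈ (σ⁻¹ • A).nonunits
  rw [mem_nonunits_inv_smul_iff, map_natCast]
  exact hA

end conj

/-- **NC**: the normal closure of a field unramified outside `S` is unramified outside `S`. -/
theorem exists_normal_level (S : Finset Nat.Primes)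
    (F : IntermediateField ℚ (AlgebraicClosure ℚ)) (hF : F.IsUnramifiedOutside S) :
    ∃ F' : IntermediateField ℚ (AlgebraicClosure ℚ),
      F ≤ F' ∧ F'.IsUnramifiedOutside S ∧ F'.fixingSubgroup.Normal := by
  haveI := qbar_isAlgebraic
  haveI := qbar_isGalois
  haveI : Normal ℚ (AlgebraicClosure ℚ) := IsGalois.to_normal
  have hdef := IntermediateField.normalClosure_def'' (F := ℚ) (L := AlgebraicClosure ℚ) F
  haveI hFfin : FiniteDimensional ℚ F := hF.1
  have hfd : FiniteDimensional ℚ ↥(⨆ f : AlgebraicClosure ℚ ≃ₐ[ℚ] AlgebraicClosure ℚ,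
      F.map (f : AlgebraicClosure ℚ →ₐ[ℚ] AlgebraicClosure ℚ)) := by
    rw [← hdef]
    infer_instance
  -- the compositum of the conjugates is stable under the Galois group
  have hstab : ∀ τ : AlgebraicClosure ℚ ≃ₐ[ℚ] AlgebraicClosure ℚ,
      (⨆ f : AlgebraicClosure ℚ ≃ₐ[ℚ] AlgebraicClosure ℚ,
        F.map (f : AlgebraicClosure ℚ →ₐ[ℚ] AlgebraicClosure ℚ)).map
          (τ : AlgebraicClosure ℚ →ₐ[ℚ] AlgebraicClosure ℚ) ≤
      ⨆ f : AlgebraicClosure ℚ ≃ₐ[ℚ] AlgebraicClosure ℚ,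
        F.map (f : AlgebraicClosure ℚ →ₐ[ℚ] AlgebraicClosure ℚ) := by
    intro τ
    rw [IntermediateField.map_iSup]
    refine iSup_le fun σ => ?_
    rw [IntermediateField.map_map]
    exact le_iSup (fun f : AlgebraicClosure ℚ ≃ₐ[ℚ] AlgebraicClosure ℚ =>
      F.map (f : AlgebraicClosure ℚ →ₐ[ℚ] AlgebraicClosure ℚ)) (τ * σ)
  refine ⟨⨆ f : AlgebraicClosure ℚ ≃ₐ[ℚ] AlgebraicClosure ℚ,
      F.map (f : AlgebraicClosure ℚ →ₐ[ℚ] AlgebraicClosure ℚ), ?_, ⟨?_, ?_⟩, ?_⟩
  · rw [← hdef]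
    exact IntermediateField.le_normalClosure F
  · exact hfd
  · intro q hq A hA g hg
    rw [IntermediateField.mem_fixingSubgroup_iff]
    -- it suffices to fix each conjugate of `F`
    have hle : (⨆ f : AlgebraicClosure ℚ ≃ₐ[ℚ] AlgebraicClosure ℚ,
        F.map (f : AlgebraicClosure ℚ →ₐ[ℚ] AlgebraicClosure ℚ)) ≤
        IntermediateField.fixedField (Subgroup.zpowers g) := by
      refine iSup_le fun σ => ?_
      rintro _ ⟨x, hx, rfl⟩
      -- `σ⁻¹ g σ` lies in the inertia group of `σ⁻¹ A`, hence fixes `F`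
      have h1 : σ⁻¹ * g * σ ∈ (σ⁻¹ • A).inertiaSubgroupIn ℚ := conj_mem_inertia A σ g hg
      have h2 : σ⁻¹ * g * σ ∈ F.fixingSubgroup :=
        hF.2 q hq (σ⁻¹ • A) (liesOverPrime_inv_smul A σ q hA) h1
      have h3 : (σ⁻¹ * g * σ) x = x := (IntermediateField.mem_fixingSubgroup_iff F _).mp h2 x hx
      have h4 : g (σ x) = σ x := by
        have : σ ((σ⁻¹ * g * σ) x) = g (σ x) := by
          show σ (σ⁻¹ (g (σ x))) = g (σ x)
          exact AlgEquiv.apply_symm_apply σ _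
        rw [← this, h3]
      -- every power of `g` fixes `σ x`
      rintro ⟨h, n, rfl⟩
      show (g ^ n) (σ x) = σ x
      have hmem : g ∈ MulAction.stabilizer (AlgebraicClosure ℚ ≃ₐ[ℚ] AlgebraicClosure ℚ) (σ x) :=
        h4
      exact zpow_mem hmem n
    intro x hx
    exact hle hx ⟨g, Subgroup.mem_zpowers g⟩
  · refine ⟨fun n hn g => ?_⟩
    rw [IntermediateField.mem_fixingSubgroup_iff] at hn ⊢
    intro x hx
    have hx' : g⁻¹ x ∈ ⨆ f : AlgebraicClosure ℚ ≃ₐ[ℚ] AlgebraicClosure ℚ,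
        F.map (f : AlgebraicClosure ℚ →ₐ[ℚ] AlgebraicClosure ℚ) :=
      hstab g⁻¹ ⟨x, hx, rfl⟩
    have h1 := hn (g⁻¹ x) hx'
    show g (n (g⁻¹ x)) = x
    rw [h1]
    exact AlgEquiv.apply_symm_apply g x

end Fermat.Agent.S55.H48
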