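import Fermat.Agent.S55.H13_E3Ind
import Fermat.Agent.S55.H48_Lev

/-!
# S55 (Poitou–Tate), package E3 (helper13): `Stmt_E3`

`M` a finite-dimensional module of level `S ∋ p` in characteristic `p`.
`N = ker ρ_M ∩ ker χ_p` (open, normal), `L` its fixed field, `P` a `p`-Sylow subgroup of
`G_ℚ/N`, `H₀` its preimage, `K` the fixed field of `H₀`.  Then `K` is a base field,
`[G_ℚ : H₀]` is prime to `p`, so `M` is a retract of `Ind_K^ℚ Res M`, and `H₀` acts on `M`
through the `p`-group `P`, so `Ind_K^ℚ Res M` is built from copies of `k[G_ℚ/G_K]`.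
-/

set_option autoImplicit false
set_option linter.style.haveILetI false
set_option linter.unusedSectionVars false
set_option linter.unusedVariables false

noncomputable section

namespace Fermat.Agent.S55.H13

open CategoryTheory Module groupCohomology ExtCitation Fermat.Agent.S55

/-- A subgroup containing the fixing subgroup of a finite extension is the fixing subgroup of its
fixed field, this field is contained in the extension, and the subgroup has finite index. -/
theorem fixedField_of_le (F : IntermediateField ℚ (AlgebraicClosure ℚ)) [FiniteDimensional ℚ F]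
    (N : Subgroup GQ) (hle : F.fixingSubgroup ≤ N) :
    (IntermediateField.fixedField N).fixingSubgroup = N ∧ IntermediateField.fixedField N ≤ F ∧
      Finite (GQ ⧸ N) := by
  haveI := H48.qbar_isGalois
  have hopen : IsOpen (N : Set GQ) := Subgroup.isOpen_mono hle F.fixingSubgroup_isOpen
  have hclosed : IsClosed (N : Set GQ) := (⟨N, hopen⟩ : OpenSubgroup GQ).isClosed
  refine ⟨InfiniteGalois.fixingSubgroup_fixedField ⟨N, hclosed⟩, ?_, ?_⟩
  · intro x hx
    rw [← InfiniteGalois.fixedField_fixingSubgroup F]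
    rw [IntermediateField.mem_fixedField_iff] at hx ⊢
    intro s hs
    exact hx s (hle hs)
  · exact Subgroup.quotient_finite_of_isOpen N hopen

/-- An automorphism with trivial cyclotomic character fixes the `p`-th roots of unity. -/
theorem fix_of_cycloChar_eq_one (p : ℕ) [Fact p.Prime] (σ : GQ) (h : cycloChar p σ = 1)
    (ζ : AlgebraicClosure ℚ) (hζ : ζ ^ p = 1) : σ ζ = ζ := by
  haveI : NeZero p := ⟨(Fact.out : p.Prime).ne_zero⟩
  haveI : Fact (1 < p) := ⟨(Fact.out : p.Prime).one_lt⟩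
  have hζu : IsUnit ζ := IsUnit.of_pow_eq_one hζ (NeZero.ne p)
  obtain ⟨t, rfl⟩ := hζu
  have ht : t ∈ rootsOfUnity p (AlgebraicClosure ℚ) := by
    rw [mem_rootsOfUnity]
    exact Units.ext (by rw [Units.val_pow_eq_pow_val, hζ, Units.val_one])
  have h1 := modularCyclotomicCharacter.spec (L := AlgebraicClosure ℚ)
    (card_rootsOfUnity_eq_self p) (σ : AlgebraicClosure ℚ ≃+* AlgebraicClosure ℚ) ht
  have h2 : ((modularCyclotomicCharacter (AlgebraicClosure ℚ) (card_rootsOfUnity_eq_self p)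
      (σ : AlgebraicClosure ℚ ≃+* AlgebraicClosure ℚ) : (ZMod p)ˣ) : ZMod p) = 1 := by
    have := congrArg (fun u : (ZMod p)ˣ => (u : ZMod p)) h
    exact this
  rw [h2, ZMod.val_one, pow_one] at h1
  exact h1

/-- **E3.** -/
theorem stmt_E3 : Stmt_E3 := by
  intro p _ k _ _ S M _ hpS hLev
  have hp : p.Prime := Fact.out
  haveI := H48.qbar_isGalois
  obtain ⟨F, hF, hFM⟩ := hLev
  obtain ⟨F', hF', hχ⟩ := H48.stmt_levChar p S hpS
  haveI := hF.1
  haveI := hF'.1
  haveI : FiniteDimensional ℚ (F ⊔ F' : IntermediateField ℚ (AlgebraicClosure ℚ)) :=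
    IntermediateField.finiteDimensional_sup F F'
  -- the normal subgroup `N`
  obtain ⟨N, hNdef⟩ : ∃ N : Subgroup GQ, N = M.ρ.ker ⊓ (cycloChar p).ker := ⟨_, rfl⟩
  haveI hNnorm : N.Normal := by rw [hNdef]; infer_instance
  have hNM : ∀ s ∈ N, M.ρ s = 1 := by
    intro s hs
    rw [hNdef] at hs
    exact MonoidHom.mem_ker.mp hs.1
  have hNχ : ∀ s ∈ N, cycloChar p s = 1 := by
    intro s hs
    rw [hNdef] at hs
    exact MonoidHom.mem_ker.mp hs.2
  have hle : (F ⊔ F').fixingSubgroup ≤ N := by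
    intro s hs
    rw [IntermediateField.fixingSubgroup_sup] at hs
    rw [hNdef]
    refine ⟨MonoidHom.mem_ker.mpr ?_, MonoidHom.mem_ker.mpr (hχ s hs.2)⟩
    apply LinearMap.ext
    intro m
    exact hFM s hs.1 m
  obtain ⟨hLfix, hLle, hfinN⟩ := fixedField_of_le (F ⊔ F') N hle
  obtain ⟨L, hLdef⟩ : ∃ L : IntermediateField ℚ (AlgebraicClosure ℚ),
      L = IntermediateField.fixedField N := ⟨_, rfl⟩
  rw [← hLdef] at hLfix hLle
  have hLS : L.IsUnramifiedOutside S := (hF.sup hF').of_le hLle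
  -- a Sylow subgroup and its preimage
  haveI : Finite (GQ ⧸ N) := hfinN
  obtain ⟨P⟩ : Nonempty (Sylow p (GQ ⧸ N)) := inferInstance
  obtain ⟨H₀, hH₀def⟩ : ∃ H₀ : Subgroup GQ,
      H₀ = (P : Subgroup (GQ ⧸ N)).comap (QuotientGroup.mk' N) := ⟨_, rfl⟩
  have hNH : N ≤ H₀ := by
    intro s hs
    rw [hH₀def, Subgroup.mem_comap, QuotientGroup.mk'_apply, (QuotientGroup.eq_one_iff s).mpr hs]
    exact one_mem _
  obtain ⟨hKfix, hKle, hfinH⟩ := fixedField_of_le (F ⊔ F') H₀ (hle.trans hNH)
  obtain ⟨K, hKdef⟩ : ∃ K : IntermediateField ℚ (AlgebraicClosure ℚ),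
      K = IntermediateField.fixedField H₀ := ⟨_, rfl⟩
  rw [← hKdef] at hKfix hKle
  have hKS : K.IsUnramifiedOutside S := (hF.sup hF').of_le hKle
  -- `H₀` acts through a `p`-group
  have hpow : ∀ h ∈ H₀, ∃ n : ℕ, h ^ (p ^ n) ∈ N := by
    intro h hh
    rw [hH₀def, Subgroup.mem_comap] at hh
    obtain ⟨n, hn⟩ := P.isPGroup' ⟨QuotientGroup.mk' N h, hh⟩
    refine ⟨n, ?_⟩
    have h1 := congrArg Subtype.val hn
    rw [Subgroup.coe_pow, Subgroup.coe_one] at h1
    rw [← QuotientGroup.eq_one_iff]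
    exact h1
  -- the root of unity
  obtain ⟨ζ, hζ⟩ := H48.exists_primitiveRoot p
  have hχH : ∀ h ∈ H₀, cycloChar p h = 1 := by
    intro h hh
    obtain ⟨n, hn⟩ := hpow h hh
    have h1 : cycloChar p h ^ (p ^ n) = 1 := by rw [← map_pow]; exact hNχ _ hn
    have h2 : cycloChar p h ^ (p - 1) = 1 := by
      have := ZMod.units_pow_card_sub_one_eq_one p (cycloChar p h)
      exact this
    have hcop : Nat.Coprime (p ^ n) (p - 1) := by
      apply Nat.Coprime.pow_left
      have h2le := hp.two_le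
      exact Nat.coprime_of_lt_prime (by omega) (by omega) hp
    have h3 := orderOf_dvd_of_pow_eq_one h1
    have h4 := orderOf_dvd_of_pow_eq_one h2
    have h5 : orderOf (cycloChar p h) ∣ 1 := by
      rw [← Nat.Coprime.gcd_eq_one hcop]
      exact Nat.dvd_gcd h3 h4
    exact orderOf_eq_one_iff.mp (Nat.dvd_one.mp h5)
  have hζK : ζ ∈ K := by
    rw [hKdef, IntermediateField.mem_fixedField_iff]
    intro h hh
    exact fix_of_cycloChar_eq_one p h (hχH h hh) ζ hζ.pow_eq_one
  -- index prime to `p`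
  haveI : (P : Subgroup (GQ ⧸ N)).FiniteIndex := inferInstance
  have hidx : ¬ p ∣ H₀.index := by
    rw [hH₀def, Subgroup.index_comap_of_surjective _ (QuotientGroup.mk'_surjective N)]
    exact P.not_dvd_index
  -- transport to `K.fixingSubgroup`
  haveI hfinK : Finite (GQ ⧸ K.fixingSubgroup) := by rw [hKfix]; exact hfinH
  letI : Fintype (GQ ⧸ K.fixingSubgroup) := Fintype.ofFinite _
  have hcard : (Fintype.card (GQ ⧸ K.fixingSubgroup) : k) ≠ 0 := by
    rw [← Nat.card_eq_fintype_card, ← Subgroup.index_eq_card, hKfix]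
    intro h0
    exact hidx ((CharP.cast_eq_zero_iff k p _).mp h0)
  have hnormL : L.fixingSubgroup.Normal := by rw [hLfix]; exact hNnorm
  have hLK : L.fixingSubgroup ≤ K.fixingSubgroup := by rw [hLfix, hKfix]; exact hNH
  haveI : L.fixingSubgroup.FiniteIndex := by
    rw [hLfix]
    exact Subgroup.finiteIndex_of_finite_quotient
  haveI : (L.fixingSubgroup.subgroupOf K.fixingSubgroup).FiniteIndex := inferInstance
  have hpK : ∀ h : K.fixingSubgroup, ∃ n : ℕ,
      h ^ (p ^ n) ∈ L.fixingSubgroup.subgroupOf K.fixingSubgroup := by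
    intro h
    have hh : (h : GQ) ∈ H₀ := by rw [← hKfix]; exact h.2
    obtain ⟨n, hn⟩ := hpow h hh
    refine ⟨n, ?_⟩
    rw [Subgroup.mem_subgroupOf, hLfix]
    exact hn
  have htriv : TrivOn K L (Rep.res K.fixingSubgroup.subtype M) := by
    intro h hh
    rw [hLfix] at hh
    exact hNM _ hh
  haveI : FiniteDimensional k (Rep.res K.fixingSubgroup.subtype M) :=
    inferInstanceAs (FiniteDimensional k M)
  have hdev := dev_ind p S K L hLS hnormL hLK hpK _ (Rep.res K.fixingSubgroup.subtype M) rfl htriv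
  exact ⟨K, ⟨hKS, ζ, hζK, hζ⟩, Ind K.fixingSubgroup (Rep.res K.fixingSubgroup.subtype M),
    isRetract_ind K.fixingSubgroup M hcard, hdev.1, hdev.2⟩

end Fermat.Agent.S55.H13
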