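/-
S55 (Poitou–Tate), package E2: the four duality properties pass to retracts.  helper48.

`M` a retract of `N` (`i : M ⟶ N`, `r : N ⟶ M`, `r ∘ i = 1`).  Cochains are pushed forward along
`i`, `r` and along the dual maps `i' : N' ⟶ M'`, `r' : M' ⟶ N'` (`i' ∘ r' = 1`); the cup products
are natural for these maps.
-/
import Fermat.Agent.S55.Coh.Stmts
import Fermat.Agent.S55.Coh.Cone
import Fermat.Agent.S55.Coh.Level

set_option autoImplicit false

open CategoryTheory Module groupCohomology ExtCitation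

noncomputable section

namespace Fermat.Agent.S55.H48

open Fermat.Agent.S55

variable {k : Type} [Field k] {S : Finset Nat.Primes} (χ : GQ →* kˣ)

section naturalityRight

variable {A B : Rep.{0} k GQ}

/-- Naturality of `cupB1`: `a ∪ u'(y) = u(a) ∪ y`. -/
lemma cupB1_mapC1 (u : A ⟶ B) (a : GQ × GQ → A) (y : C1c S (Md χ B)) :
    cupB1 S χ A a (mapC1 (dHom χ u).hom y) = cupB1 S χ B (fun t => u.hom (a t)) y := by
  refine Prod.ext (funext fun t => ?_) (funext fun q => funext fun t => ?_)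
  · simp only [cupB1, mapC1, ← ev_dMap]
    exact congrArg _ (dMap_rho χ u _ _).symm
  · simp only [cupB1, mapC1, ← ev_dMap]
    exact congrArg _ (dMap_rho χ u _ _).symm

/-- Naturality of `cupB2`: `a ∪ u'(y) = u(a) ∪ y`. -/
lemma cupB2_mapC2 (u : A ⟶ B) (a : GQ → A) (y : C2c S (Md χ B)) :
    cupB2 S χ A a (mapC2 (dHom χ u).hom y) = cupB2 S χ B (fun t => u.hom (a t)) y := by
  refine Prod.ext (funext fun t => ?_) (funext fun q => funext fun t => ?_)
  · simp only [cupB2, mapC2, ← ev_dMap]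
    exact congrArg _ (dMap_rho χ u _ _).symm
  · simp only [cupB2, mapC2, ← ev_dMap]
    exact congrArg (fun z => - ev χ A (a ((rl q.1) t.1)) z) (dMap_rho χ u _ _).symm

end naturalityRight

section push

variable {A B : Rep.{0} k GQ} (u : A ⟶ B)

lemma isZ1S_push {b : GQ → A} (hb : IsZ1S S A b) : IsZ1S S B (fun g => u.hom (b g)) := by
  refine ⟨?_, levS₁_comp hb.2 _⟩
  rw [dOne_comp, hb.1]
  funext x
  simp

lemma isZ2S_push {a : GQ × GQ → A} (ha : IsZ2S S A a) : IsZ2S S B (fun t => u.hom (a t)) := by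
  refine ⟨?_, levS₂_comp ha.2 _⟩
  rw [dTwo_comp, ha.1]
  funext x
  simp

lemma isB2S_push {a : GQ × GQ → A} (ha : IsB2S S A a) : IsB2S S B (fun t => u.hom (a t)) := by
  obtain ⟨f, hf, rfl⟩ := ha
  exact ⟨fun g => u.hom (f g), levS₁_comp hf _, dOne_comp u f⟩

lemma mapC3_zero : mapC3 (S := S) u.hom (0 : C3c S A) = 0 := by
  refine Prod.ext (funext fun t => ?_) (funext fun q => funext fun t => ?_) <;>
    simp [mapC3]

lemma mapC2_zero : mapC2 (S := S) u.hom (0 : C2c S A) = 0 := by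
  refine Prod.ext (funext fun t => ?_) (funext fun q => funext fun t => ?_) <;>
    simp [mapC2]

lemma isZ1c_push {y : C1c S A} (hy : IsZ1c S A y) : IsZ1c S B (mapC1 u.hom y) := by
  rw [isZ1c_iff] at hy ⊢
  refine ⟨levS₁_comp hy.1 _, ?_⟩
  rw [dCone1_mapC1, hy.2, mapC2_zero]

lemma isZ2c_push {x : C2c S A} (hx : IsZ2c S A x) : IsZ2c S B (mapC2 u.hom x) := by
  rw [isZ2c_iff] at hx ⊢
  refine ⟨⟨levS₂_comp hx.1.1 _, fun q => levL₁_comp q.1 (hx.1.2 q) _⟩, ?_⟩
  rw [dCone2_mapC2, hx.2, mapC3_zero]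

lemma isZ3c_push {x : C3c S A} (hx : IsZ3c S A x) : IsZ3c S B (mapC3 u.hom x) := by
  obtain ⟨⟨hd, hl⟩, h⟩ := hx
  refine ⟨⟨?_, levS₃_comp hl _⟩, fun q => ⟨levL₂_comp q.1 (h q).1 _, ?_⟩⟩
  · show dThree B (fun t => u.hom (x.1 t)) = 0
    rw [dThree_comp, hd]
    funext t
    simp
  · show resThree q.1 (fun t => u.hom (x.1 t)) = dTwoL B q.1 (fun t => u.hom (x.2 q t))
    rw [dTwoL_comp, ← (h q).2]
    rfl

lemma isB3c_push {x : C3c S A} (hx : IsB3c S A x) : IsB3c S B (mapC3 u.hom x) := by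
  rw [isB3c_iff] at hx ⊢
  obtain ⟨z, hl, hl', rfl⟩ := hx
  exact ⟨mapC2 u.hom z, levS₂_comp hl _, fun q => levL₁_comp q.1 (hl' q) _,
    (dCone2_mapC2 u z).symm⟩

lemma isB2c_push {x : C2c S A} (hx : IsB2c S A x) : IsB2c S B (mapC2 u.hom x) := by
  rw [isB2c_iff] at hx ⊢
  obtain ⟨w, hl, rfl⟩ := hx
  exact ⟨mapC1 u.hom w, levS₁_comp hl _, (dCone1_mapC1 u w).symm⟩

end push

section retract

variable {M N : Rep.{0} k GQ} (i : M ⟶ N) (r : N ⟶ M) (hri : ∀ m : M, r.hom (i.hom m) = m)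

include hri

lemma dMap_retract (φ : Md χ M) : dMap χ i (dMap χ r φ) = φ := by
  apply Md_ext
  intro m
  rw [ev_dMap, ev_dMap, hri]

lemma mapC3_retract (x : C3c S M) : mapC3 r.hom (mapC3 i.hom x) = x := by
  refine Prod.ext (funext fun t => ?_) (funext fun q => funext fun t => ?_)
  · exact hri _
  · exact hri _

lemma mapC2_dual_retract (y : C2c S (Md χ M)) :
    mapC2 (dHom χ i).hom (mapC2 (dHom χ r).hom y) = y := by
  refine Prod.ext (funext fun t => ?_) (funext fun q => funext fun t => ?_)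
  · exact dMap_retract χ i r hri _
  · exact dMap_retract χ i r hri _

theorem alphaTwoEpi_of_retract (tr : Trace S χ) (hN : AlphaTwoEpi tr N) : AlphaTwoEpi tr M := by
  intro φ hφ
  -- transport the functional to `N'`
  let φN : (GQ → Md χ N) →ₗ[k] k := φ.comp ((dMap χ i).compLeft GQ)
  have hφN : ∀ n' : Md χ N, φN (dZero (Md χ N) n') = 0 := by
    intro n'
    have h1 : (dMap χ i).compLeft GQ (dZero (Md χ N) n') = dZero (Md χ M) (dMap χ i n') :=
      (dZero_comp (dHom χ i) n').symm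
    show φ ((dMap χ i).compLeft GQ (dZero (Md χ N) n')) = 0
    rw [h1]
    exact hφ _
  obtain ⟨xN, hxN, hpair⟩ := hN φN hφN
  refine ⟨mapC2 r.hom xN, isZ2c_push r hxN, fun b hb => ?_⟩
  rw [cupA2_mapC2]
  have hb' : IsZ1S S (Md χ N) (fun g => dMap χ r (b g)) := isZ1S_push (dHom χ r) hb
  rw [hpair _ hb']
  show φ ((dMap χ i).compLeft GQ (fun g => dMap χ r (b g))) = φ b
  congr 1
  funext g
  exact dMap_retract χ i r hri (b g)

theorem alphaThreeMono_of_retract (tr : Trace S χ) (hN : AlphaThreeMono tr N) :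
    AlphaThreeMono tr M := by
  intro x hx hinv
  have h1 : IsB3c S N (mapC3 i.hom x) := by
    refine hN _ (isZ3c_push i hx) fun n' hn' => ?_
    rw [cupA3_mapC3]
    refine hinv _ fun g => ?_
    rw [← dMap_rho, hn' g]
  have h2 := isB3c_push r h1
  rwa [mapC3_retract i r hri] at h2

theorem betaOneEpi_of_retract (tr : Trace S χ) (hN : BetaOneEpi tr N) : BetaOneEpi tr M := by
  intro φ hφ
  let φN : (GQ × GQ → N) →ₗ[k] k := φ.comp (r.hom.toLinearMap.compLeft (GQ × GQ))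
  have hφN : ∀ a : GQ × GQ → N, IsB2S S N a → φN a = 0 := by
    intro a ha
    exact hφ _ (isB2S_push r ha)
  obtain ⟨yN, hyN, hpair⟩ := hN φN hφN
  refine ⟨mapC1 (dHom χ i).hom yN, isZ1c_push (dHom χ i) hyN, fun a ha => ?_⟩
  rw [cupB1_mapC1, hpair _ (isZ2S_push i ha)]
  show φ (r.hom.toLinearMap.compLeft (GQ × GQ) (fun t => i.hom (a t))) = φ a
  congr 1
  funext t
  exact hri (a t)

theorem betaTwoMono_of_retract (tr : Trace S χ) (hN : BetaTwoMono tr N) : BetaTwoMono tr M := by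
  intro y hy hpair
  have h1 : IsB2c S (Md χ N) (mapC2 (dHom χ r).hom y) := by
    refine hN _ (isZ2c_push (dHom χ r) hy) fun a ha => ?_
    rw [cupB2_mapC2]
    exact hpair _ (isZ1S_push r ha)
  have h2 := isB2c_push (dHom χ i) h1
  rwa [mapC2_dual_retract χ i r hri] at h2

end retract

/-- **E2**: the four properties pass to retracts. -/
theorem stmt_E2 : Stmt_E2 := by
  intro k _ S χ tr M N hret
  obtain ⟨i, r, hri⟩ := hret
  exact ⟨alphaTwoEpi_of_retract χ i r hri tr, alphaThreeMono_of_retract χ i r hri tr,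
    betaOneEpi_of_retract χ i r hri tr, betaTwoMono_of_retract χ i r hri tr⟩

end Fermat.Agent.S55.H48

end
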