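/-
S55 (Poitou–Tate), package E5, part 2: the cochain-level pairing.
* `cupA2_sub_cupB1` (adjointness): for `x = (a, g)` with `res a = d g` and `y = (b, m')` with
  `res b = d m'`, `x ∪ b - a ∪ y` is the cone differential of a purely local cone 2-cochain.
* `tr_cupA2_eq_cupB1`: hence both cup products have the same trace.
* `tr_cupA2_dZero`, `tr_cupB1_dOne`: the trace of the cup product vanishes on coboundaries.
Owner: helper48.
-/
import Fermat.Agent.S55.Coh.ConeR
import Fermat.Agent.S55.Coh.Stmts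

set_option autoImplicit false

open CategoryTheory Module groupCohomology ExtCitation

noncomputable section

namespace Fermat.Agent.S55.H48

open Fermat.Agent.S55

variable {k : Type} [Field k] {S : Finset Nat.Primes} (χ : GQ →* kˣ) (M : Rep.{0} k GQ)

/-- The local correction term of the adjointness formula. -/
def adjU (x : C2c S M) (y : C1c S (Md χ M)) : C2c S (kχ χ) :=
  (0, fun q h => ev χ M (x.2 q h) ((Md χ M).ρ (rl q.1 h) (y.2 q)))

/-- **Adjointness** of the two cup products on cone cocycles. -/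
lemma cupA2_sub_cupB1 (x : C2c S M) (y : C1c S (Md χ M))
    (hx : ∀ q : ↥S, resTwo q.1 x.1 = dOneL M q.1 (x.2 q))
    (hy : ∀ q : ↥S, resOne q.1 y.1 = dZeroL (Md χ M) q.1 (y.2 q)) :
    cupA2 S χ M x y.1 - cupB1 S χ M x.1 y = dCone2 S (kχ χ) (adjU χ M x y) := by
  refine Prod.ext (funext fun t => ?_) (funext fun q => funext fun t => ?_)
  · obtain ⟨g₁, g₂, g₃⟩ := t
    simp only [dCone2, adjU, cupA2, cupB1, Prod.fst_sub, Pi.sub_apply, sub_self, dTwo_zero,
      Pi.zero_apply]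
  · obtain ⟨h₁, h₂⟩ := t
    have e1 : y.1 (rl q.1 h₂) = (Md χ M).ρ (rl q.1 h₂) (y.2 q) - y.2 q := congrFun (hy q) h₂
    have e2 : x.1 (rl q.1 h₁, rl q.1 h₂) =
        M.ρ (rl q.1 h₁) (x.2 q h₂) - x.2 q (h₁ * h₂) + x.2 q h₁ := congrFun (hx q) (h₁, h₂)
    simp only [dCone2, adjU, cupA2, cupB1, dOneL, resTwo, Prod.snd_sub, Pi.sub_apply,
      Pi.zero_apply, e1, e2, ev_sub_left, ev_add_left, map_sub, map_mul,
      Module.End.mul_apply, ev_rho', kχ_rho']
    erw [ev_sub_right]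
    ring

variable {χ M}

/-- The components of the correction term are level constant. -/
lemma lev_adjU (hχ : LevChar S χ) (hM : Lev S M) {x : C2c S M}
    (hl' : ∀ q : ↥S, IsLevelConstant₁ (rl q.1) (x.2 q)) (y : C1c S (Md χ M)) :
    IsLevelConstantS₂ S (adjU χ M x y).1 ∧
      ∀ q : ↥S, IsLevelConstant₁ (rl q.1) ((adjU χ M x y).2 q) := by
  have hM' : Lev S (Md χ M) := lev_Md M hχ hM
  refine ⟨isLevelConstantS₂_const S (0 : kχ χ), fun q => ?_⟩
  exact levL₁_comp q.1 (levL₁_pair q.1 (hl' q) (levL₁_rho (Md χ M) q.1 hM' (y.2 q)))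
    (fun p => ev χ M p.1 p.2)

/-- The two cup products of a cone 2-cocycle of `M` and a cone 1-cocycle of `M'` have the same
trace. -/
theorem tr_cupA2_eq_cupB1 (hχ : LevChar S χ) (hM : Lev S M) (tr : Trace S χ)
    {x : C2c S M} {y : C1c S (Md χ M)} (hx : IsZ2c S M x) (hy : IsZ1c S (Md χ M) y) :
    tr.toFun (cupA2 S χ M x y.1) = tr.toFun (cupB1 S χ M x.1 y) := by
  rw [← sub_eq_zero, ← map_sub,
    cupA2_sub_cupB1 χ M x y (fun q => (hx.2 q).2) (fun q => hy.2 q)]
  obtain ⟨h1, h2⟩ := lev_adjU hχ hM (fun q => (hx.2 q).1) y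
  exact tr.zero_of_isB3c _ (isB3c_dCone2 h1 h2)

/-- The trace of `x ∪ d m'` vanishes for a cone 2-cocycle `x`. -/
theorem tr_cupA2_dZero (hNC : NC S) (hχ : LevChar S χ) (hM : Lev S M) (tr : Trace S χ)
    {x : C2c S M} (hx : IsZ2c S M x) (m' : Md χ M) :
    tr.toFun (cupA2 S χ M x (dZero (Md χ M) m')) = 0 := by
  have hx' := (isZ2c_iff x).1 hx
  have h := dCone2_cupA20 χ M x m'
  rw [hx'.2, cupA3_zero_left, zero_add] at h
  rw [← h]
  obtain ⟨h1, h2⟩ := lev_cupA20 χ M hNC hχ hM hx'.1.1 hx'.1.2 m'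
  exact tr.zero_of_isB3c _ (isB3c_dCone2 h1 h2)

/-- The trace of `d f ∪ y` vanishes for a cone 1-cocycle `y` and a level-`S` cochain `f`. -/
theorem tr_cupB1_dOne (hNC : NC S) (hχ : LevChar S χ) (hM : Lev S M) (tr : Trace S χ)
    {y : C1c S (Md χ M)} (hy : IsZ1c S (Md χ M) y) {f : GQ → M}
    (hf : IsLevelConstantS₁ S f) :
    tr.toFun (cupB1 S χ M (dOne M f) y) = 0 := by
  have hy' := (isZ1c_iff y).1 hy
  have h := dCone2_cupB11 χ M f y
  rw [hy'.2, cupB2_zero_right, sub_zero] at h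
  rw [← h]
  obtain ⟨h1, h2⟩ := lev_cupB11 χ M hNC hχ hM hf hy'.1
  exact tr.zero_of_isB3c _ (isB3c_dCone2 h1 h2)

end Fermat.Agent.S55.H48

end
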