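/-
S55 (Poitou–Tate), package E5, part 1: linear algebra.
* `exists_linear_factor`: a linear map vanishing on the kernel of a surjection factors.
* `exists_bilin_descent`: a bilinear form descends through two surjections.
* `exists_functional_sep`: a vector outside a subspace is separated from it by a functional.
Owner: helper48.
-/
import Mathlib.LinearAlgebra.Dual.Lemmas
import Mathlib.LinearAlgebra.Isomorphisms

set_option autoImplicit false

namespace Fermat.Agent.S55.H48

/-- A linear map which vanishes on the kernel of a surjection factors through it. -/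
theorem exists_linear_factor {K : Type*} [Field K] {Z X Y : Type*}
    [AddCommGroup Z] [Module K Z] [AddCommGroup X] [Module K X] [AddCommGroup Y] [Module K Y]
    (π : Z →ₗ[K] X) (hπ : Function.Surjective π) (f : Z →ₗ[K] Y)
    (h : ∀ z, π z = 0 → f z = 0) : ∃ f' : X →ₗ[K] Y, ∀ z, f' (π z) = f z := by
  have hle : LinearMap.ker π ≤ LinearMap.ker f := fun z hz => h z hz
  refine ⟨((LinearMap.ker π).liftQ f hle).comp
    (π.quotKerEquivOfSurjective hπ).symm.toLinearMap, fun z => ?_⟩
  have e : (π.quotKerEquivOfSurjective hπ).symm (π z) = Submodule.Quotient.mk z := by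
    rw [LinearEquiv.symm_apply_eq]
    rfl
  simp only [LinearMap.coe_comp, LinearEquiv.coe_coe, Function.comp_apply, e]
  rfl

/-- A bilinear form which vanishes on the kernels of two surjections descends. -/
theorem exists_bilin_descent {K : Type*} [Field K] {Z₁ Z₂ X₁ X₂ : Type*}
    [AddCommGroup Z₁] [Module K Z₁] [AddCommGroup Z₂] [Module K Z₂]
    [AddCommGroup X₁] [Module K X₁] [AddCommGroup X₂] [Module K X₂]
    (π₁ : Z₁ →ₗ[K] X₁) (π₂ : Z₂ →ₗ[K] X₂)
    (h₁ : Function.Surjective π₁) (h₂ : Function.Surjective π₂)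
    (P : Z₁ →ₗ[K] Z₂ →ₗ[K] K)
    (hP₁ : ∀ b, π₁ b = 0 → ∀ a, P b a = 0)
    (hP₂ : ∀ a, π₂ a = 0 → ∀ b, P b a = 0) :
    ∃ B : X₁ →ₗ[K] X₂ →ₗ[K] K, ∀ b a, B (π₁ b) (π₂ a) = P b a := by
  obtain ⟨R, hR⟩ := exists_linear_factor π₂ h₂ P.flip (fun a ha => by
    apply LinearMap.ext
    intro b
    exact hP₂ a ha b)
  obtain ⟨B, hB⟩ := exists_linear_factor π₁ h₁ R.flip (fun b hb => by
    apply LinearMap.ext
    intro x
    obtain ⟨a, rfl⟩ := h₂ x
    show R (π₂ a) b = 0
    rw [hR a]
    exact hP₁ b hb a)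
  refine ⟨B, fun b a => ?_⟩
  rw [hB b]
  show R (π₂ a) b = _
  rw [hR a]
  rfl

/-- Over a field, a vector outside a subspace is separated from it by a functional. -/
theorem exists_functional_sep {K : Type*} [Field K] {V : Type*} [AddCommGroup V] [Module K V]
    (W : Submodule K V) {v : V} (hv : v ∉ W) :
    ∃ φ : V →ₗ[K] K, (∀ w ∈ W, φ w = 0) ∧ φ v ≠ 0 := by
  obtain ⟨f, hf, hW⟩ := Submodule.exists_dual_map_eq_bot_of_notMem hv inferInstance
  refine ⟨f, fun w hw => ?_, hf⟩
  have : f w ∈ W.map f := Submodule.mem_map_of_mem hw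
  rw [hW] at this
  exact (Submodule.mem_bot K).1 this

end Fermat.Agent.S55.H48
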