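/-
S55 (Poitou–Tate), package E1A: the cochain-level four lemma with cone on the left.
`α²epi(M₁) ∧ α³mono(M₁) ∧ α²epi(M₂) ⟹ α²epi(M)` for `0 → M₁ → M → M₂ → 0`.
Owner: helper49.
-/
import Fermat.Agent.S55.Coh.Stmts
import Fermat.Agent.S55.Coh.Cone

set_option autoImplicit false

open CategoryTheory Module groupCohomology ExtCitation

noncomputable section

namespace Fermat.Agent.S55.H49

open Fermat.Agent.S55

variable {k : Type} [Field k] {S : Finset Nat.Primes} {χ : GQ →* kˣ}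

/-- Level-`S` 1-cocycles are pushed forward by morphisms. -/
lemma isZ1S_comp {A B : Rep.{0} k GQ} (u : A ⟶ B) {b : GQ → A} (hb : IsZ1S S A b) :
    IsZ1S S B (fun g => u.hom (b g)) := by
  refine ⟨?_, levS₁_comp hb.2 _⟩
  rw [dOne_comp, hb.1]
  funext x
  simp

/-- Cone 2-cocycles are pushed forward by morphisms. -/
lemma isZ2c_mapC2 {A B : Rep.{0} k GQ} (u : A ⟶ B) {x : C2c S A} (hx : IsZ2c S A x) :
    IsZ2c S B (mapC2 u.hom x) := by
  rw [isZ2c_iff] at hx ⊢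
  obtain ⟨⟨hl, hl'⟩, hd⟩ := hx
  refine ⟨⟨levS₂_comp hl _, fun q => levL₁_comp q.1 (hl' q) _⟩, ?_⟩
  rw [dCone2_mapC2, hd]
  refine Prod.ext (funext fun t => ?_) (funext fun q => funext fun t => ?_) <;>
    simp [mapC3]

/-- Cone 2-cocycles are closed under addition. -/
lemma isZ2c_add {M : Rep.{0} k GQ} {x x' : C2c S M} (hx : IsZ2c S M x) (hx' : IsZ2c S M x') :
    IsZ2c S M (x + x') := by
  rw [isZ2c_iff] at hx hx' ⊢
  obtain ⟨⟨hl, hl'⟩, hd⟩ := hx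
  obtain ⟨⟨hm, hm'⟩, hd'⟩ := hx'
  refine ⟨⟨hl.add hm, fun q => (hl' q).add (hm' q)⟩, ?_⟩
  rw [dCone2_add, hd, hd', add_zero]

/-- The level-`S` 1-cocycles as a submodule. -/
def Z1S (S : Finset Nat.Primes) (M : Rep.{0} k GQ) : Submodule k (GQ → M) where
  carrier := {b | IsZ1S S M b}
  add_mem' := by
    intro b b' hb hb'
    exact ⟨by rw [dOne_add, hb.1, hb'.1, add_zero], hb.2.add hb'.2⟩
  zero_mem' := ⟨dOne_zero M, isLevelConstantS₁_const S (0 : M)⟩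
  smul_mem' := by
    intro c b hb
    exact ⟨by rw [dOne_smul, hb.1, smul_zero], hb.2.comp (c • ·)⟩

lemma mem_Z1S {M : Rep.{0} k GQ} {b : GQ → M} : b ∈ Z1S S M ↔ IsZ1S S M b := Iff.rfl

/-- Linear algebra: a functional on `V` which vanishes on `p ∩ ker I` agrees on `p` with a
functional on `X` composed with `I`. -/
lemma exists_functional_factor {K V X : Type*} [Field K] [AddCommGroup V] [Module K V]
    [AddCommGroup X] [Module K X] (p : Submodule K V) (I : V →ₗ[K] X) (ψ : V →ₗ[K] K)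
    (h : ∀ v ∈ p, I v = 0 → ψ v = 0) : ∃ ψ₁ : X →ₗ[K] K, ∀ v ∈ p, ψ₁ (I v) = ψ v := by
  have hmem : ψ.comp p.subtype ∈ LinearMap.range (I.comp p.subtype).dualMap := by
    rw [LinearMap.range_dualMap_eq_dualAnnihilator_ker, Submodule.mem_dualAnnihilator]
    intro v hv
    exact h v.1 v.2 hv
  obtain ⟨ψ₁, hψ₁⟩ := hmem
  exact ⟨ψ₁, fun v hv => congrArg (fun f : p →ₗ[K] K => f ⟨v, hv⟩) hψ₁⟩

set_option maxHeartbeats 1600000 in
/-- **E1A** from `NC`. -/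
theorem stmt_E1A_of_NC (hNC : ∀ S : Finset Nat.Primes, NC S) : Stmt_E1A := by
  intro k _ S χ tr hχ M₁ M M₂ i π hses h₁ hM h₂ hA1 hA3 hA2 φ hφ
  have hses' := hses
  obtain ⟨hi, hπ, hex⟩ := hses
  have hNC := hNC S
  have hM' : Lev S (Md χ M) := lev_Md M hχ hM
  -- linear section of `π`, linear retraction of `i`
  obtain ⟨σ, hσ⟩ := LinearMap.exists_rightInverse_of_surjective π.hom.toLinearMap
    (LinearMap.range_eq_top.2 hπ)
  have hσ' : ∀ m₂ : M₂, π.hom (σ m₂) = m₂ := fun m₂ =>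
    congrArg (fun f : M₂ →ₗ[k] M₂ => f m₂) hσ
  obtain ⟨r, hr⟩ := LinearMap.exists_leftInverse_of_injective i.hom.toLinearMap
    (LinearMap.ker_eq_bot.2 hi)
  have hr' : ∀ m₁ : M₁, r (i.hom m₁) = m₁ := fun m₁ =>
    congrArg (fun f : M₁ →ₗ[k] M₁ => f m₁) hr
  have hir : ∀ m : M, π.hom m = 0 → i.hom (r m) = m := by
    intro m hm
    obtain ⟨m₁, rfl⟩ := (hex m).1 hm
    rw [hr']
  -- the dual of `σ`, a linear map `M' → M₂'`
  let F : Md χ M →ₗ[k] Md χ M₂ :=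
    { toFun := fun ψ => (show Module.Dual k M from ψ).comp σ
      map_add' := fun _ _ => rfl
      map_smul' := fun _ _ => rfl }
  have hF : ∀ ψ : Md χ M, dMap χ i ψ = 0 → dMap χ π (F ψ) = ψ := by
    intro ψ hψ
    apply Md_ext
    intro m
    rw [ev_dMap]
    change (show Module.Dual k M from ψ) (σ (π.hom m)) = (show Module.Dual k M from ψ) m
    have h1 : π.hom (σ (π.hom m) - m) = 0 := by rw [map_sub, hσ', sub_self]
    obtain ⟨m₁, hm₁⟩ := (hex _).1 h1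
    have h2 : (show Module.Dual k M from ψ) (i.hom m₁) = 0 :=
      congrArg (fun ψ' : Md χ M₁ => ev χ M₁ m₁ ψ') hψ
    rw [hm₁, map_sub, sub_eq_zero] at h2
    exact h2
  -- a cocycle of `M'` killed by `i'` comes from a cocycle of `M₂'`
  have hlift : ∀ b : GQ → Md χ M, IsZ1S S (Md χ M) b → (∀ g, dMap χ i (b g) = 0) →
      ∃ b₂ : GQ → Md χ M₂, IsZ1S S (Md χ M₂) b₂ ∧ (fun g => dMap χ π (b₂ g)) = b := by
    intro b hb hb0
    have hb₂ : (fun g => dMap χ π (F (b g))) = b := funext fun g => hF (b g) (hb0 g)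
    refine ⟨fun g => F (b g), ⟨?_, levS₁_comp hb.2 _⟩, hb₂⟩
    have h3 := dOne_comp (dHom χ π) (fun g => F (b g))
    have h4 : (fun g => (dHom χ π).hom (F (b g))) = b := hb₂
    rw [h4, hb.1] at h3
    funext x
    have h5 := congrFun h3 x
    apply dMap_injective χ π hπ
    simp only [Pi.zero_apply, map_zero]
    exact h5.symm
  -- Step 1: the functional on `H¹_S(M₂')`
  let φ₂ : (GQ → Md χ M₂) →ₗ[k] k := φ.comp ((dMap χ π).compLeft GQ)
  have hφ₂ : ∀ m₂' : Md χ M₂, φ₂ (dZero (Md χ M₂) m₂') = 0 := by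
    intro m₂'
    have : (dMap χ π).compLeft GQ (dZero (Md χ M₂) m₂') = dZero (Md χ M) (dMap χ π m₂') := by
      funext g
      have := congrFun (dZero_comp (dHom χ π) m₂') g
      exact this.symm
    show φ ((dMap χ π).compLeft GQ (dZero (Md χ M₂) m₂')) = 0
    rw [this]
    exact hφ _
  obtain ⟨x₂, hx₂Z, hx₂⟩ := hA2 φ₂ hφ₂
  have hx₂Z' := (isZ2c_iff x₂).1 hx₂Z
  -- Step 2: lift and take the cone differential
  let xh : C2c S M := mapC2 σ x₂
  have hxhl : IsLevelConstantS₂ S xh.1 := levS₂_comp hx₂Z'.1.1 _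
  have hxhl' : ∀ q : ↥S, IsLevelConstant₁ (rl q.1) (xh.2 q) := fun q =>
    levL₁_comp q.1 (hx₂Z'.1.2 q) _
  have hπxh : mapC2 π.hom xh = x₂ := by
    refine Prod.ext (funext fun t => ?_) (funext fun q => funext fun t => ?_) <;>
      simp [mapC2, xh, hσ']
  let δ : C3c S M := dCone2 S M xh
  have hπδ : mapC3 π.hom δ = 0 := by
    rw [← dCone2_mapC2, hπxh]
    exact hx₂Z'.2
  let δ₁ : C3c S M₁ := mapC3 r δ
  have hiδ₁ : mapC3 i.hom δ₁ = δ := by
    refine Prod.ext (funext fun t => ?_) (funext fun q => funext fun t => ?_)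
    · exact hir _ (congrFun (congrArg Prod.fst hπδ) t)
    · exact hir _ (congrFun (congrFun (congrArg Prod.snd hπδ) q) t)
  have hδ₁Z : IsZ3c S M₁ δ₁ := by
    have hinj : ∀ (X : Type) (f f' : X → M₁), (fun t => i.hom (f t)) = (fun t => i.hom (f' t)) →
        f = f' := fun X f f' h => funext fun t => hi (congrFun h t)
    refine ⟨⟨?_, ?_⟩, fun q => ⟨?_, ?_⟩⟩
    · apply hinj
      rw [← dThree_comp]
      have : (fun t => i.hom (δ₁.1 t)) = δ.1 := congrArg Prod.fst hiδ₁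
      rw [this]
      show dThree M (dTwo M xh.1) = _
      rw [dThree_dTwo]
      funext t
      simp
    · exact levS₃_comp (isLevS₃_dTwo M hNC hM hxhl) r
    · exact levL₂_comp q.1 (levL₂_sub q.1 (levL₂_resTwo q.1 hxhl)
        (levL₂_dOneL q.1 M hM (hxhl' q))) r
    · apply hinj
      rw [← dTwoL_comp]
      have e1 : (fun t => i.hom (δ₁.2 q t)) = δ.2 q := congrFun (congrArg Prod.snd hiδ₁) q
      have e2 : (fun t => i.hom (resThree q.1 δ₁.1 t)) = resThree q.1 δ.1 := by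
        have : (fun t => i.hom (δ₁.1 t)) = δ.1 := congrArg Prod.fst hiδ₁
        rw [← this]
        rfl
      rw [e1, e2]
      show resThree q.1 (dTwo M xh.1) = dTwoL M q.1 (resTwo q.1 xh.1 - dOneL M q.1 (xh.2 q))
      rw [resThree_dTwo, dTwoL_sub, dTwoL_dOneL, sub_zero]
  -- Step 3: `δ₁` pairs to zero with the invariants of `M₁'`
  have hstep3 : ∀ m₁' : Md χ M₁, (∀ g : GQ, (Md χ M₁).ρ g m₁' = m₁') →
      tr.toFun (cupA3 S χ M₁ δ₁ m₁') = 0 := by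
    intro m₁' hinv
    obtain ⟨mh, hmh⟩ := dMap_surjective χ i hi m₁'
    have hb0 : ∀ g, dMap χ i (dZero (Md χ M) mh g) = 0 := by
      intro g
      show dMap χ i ((Md χ M).ρ g mh - mh) = 0
      rw [map_sub, dMap_rho, hmh, hinv g, sub_self]
    have hbZ : IsZ1S S (Md χ M) (dZero (Md χ M) mh) :=
      ⟨dOne_dZero _ mh, isLevelConstantS₁_dZero _ hM' mh⟩
    obtain ⟨β, hβZ, hβ⟩ := hlift _ hbZ hb0
    have e1 : tr.toFun (cupA2 S χ M₂ x₂ β) = 0 := by
      rw [hx₂ β hβZ]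
      show φ ((dMap χ π).compLeft GQ β) = 0
      have : (dMap χ π).compLeft GQ β = dZero (Md χ M) mh := hβ
      rw [this]
      exact hφ mh
    have e2 := dCone2_cupA20 (S := S) χ M xh mh
    have e3 : cupA3 S χ M (dCone2 S M xh) mh = cupA3 S χ M₁ δ₁ m₁' := by
      show cupA3 S χ M δ mh = _
      rw [← hiδ₁, cupA3_mapC3, hmh]
    have e4 : cupA2 S χ M xh (dZero (Md χ M) mh) = cupA2 S χ M₂ x₂ β := by
      rw [← hβ, ← cupA2_mapC2, hπxh]
    have hlev := lev_cupA20 χ M hNC hχ hM hxhl hxhl' mh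
    have e5 : tr.toFun (dCone2 S (kχ χ) (cupA20 χ M xh mh)) = 0 :=
      tr.zero_of_isB3c _ (isB3c_dCone2 hlev.1 hlev.2)
    rw [e2, e3, e4, map_add, e1, add_zero] at e5
    exact e5
  -- Step 4: correct the lift to a cone cocycle
  obtain ⟨y₁, hy₁l, hy₁l', hy₁⟩ := (isB3c_iff δ₁).1 (hA3 δ₁ hδ₁Z hstep3)
  let x : C2c S M := xh - mapC2 i.hom y₁
  have hxZ : IsZ2c S M x := by
    rw [isZ2c_iff]
    refine ⟨⟨levS₂_sub hxhl (levS₂_comp hy₁l _),
      fun q => levL₁_sub q.1 (hxhl' q) (levL₁_comp q.1 (hy₁l' q) _)⟩, ?_⟩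
    rw [dCone2_sub, dCone2_mapC2, ← hy₁, hiδ₁]
    exact sub_self _
  have hπx : mapC2 π.hom x = x₂ := by
    have : mapC2 π.hom (mapC2 i.hom y₁) = 0 := by
      refine Prod.ext (funext fun t => ?_) (funext fun q => funext fun t => ?_)
      · exact (hex _).2 ⟨_, rfl⟩
      · exact (hex _).2 ⟨_, rfl⟩
    show mapC2 π.hom.toLinearMap (xh - mapC2 i.hom y₁) = x₂
    rw [mapC2_sub]
    show mapC2 π.hom xh - mapC2 π.hom (mapC2 i.hom y₁) = x₂
    rw [this, hπxh, sub_zero]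
  -- Step 5: the difference functional factors through `H¹_S(M₁')`
  let ψ : (GQ → Md χ M) →ₗ[k] k := φ - tr.toFun.comp (cupA2ₗ S χ M x)
  have hψ : ∀ b, ψ b = φ b - tr.toFun (cupA2 S χ M x b) := fun b => rfl
  have hψ₂ : ∀ b₂ : GQ → Md χ M₂, IsZ1S S (Md χ M₂) b₂ →
      ψ (fun g => dMap χ π (b₂ g)) = 0 := by
    intro b₂ hb₂
    rw [hψ, ← cupA2_mapC2, hπx, hx₂ b₂ hb₂]
    exact sub_self _
  -- `ψ` factors through `i'` on cocycles
  have hker : ∀ b ∈ Z1S S (Md χ M), ((dMap χ i).compLeft GQ) b = 0 → ψ b = 0 := by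
    intro b hb hb'
    have hb0 : ∀ g, dMap χ i (b g) = 0 := fun g => congrFun hb' g
    obtain ⟨b₂, hb₂Z, hb₂⟩ := hlift b hb hb0
    rw [← hb₂]
    exact hψ₂ b₂ hb₂Z
  obtain ⟨ψ₁, hψ₁⟩ := exists_functional_factor (Z1S S (Md χ M)) ((dMap χ i).compLeft GQ) ψ hker
  have hψ₁' : ∀ b : GQ → Md χ M, IsZ1S S (Md χ M) b →
      ψ₁ (fun g => dMap χ i (b g)) = ψ b := fun b hb => hψ₁ b hb
  have hψ₁0 : ∀ m₁' : Md χ M₁, ψ₁ (dZero (Md χ M₁) m₁') = 0 := by
    intro m₁'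
    obtain ⟨mh, hmh⟩ := dMap_surjective χ i hi m₁'
    have hbZ : IsZ1S S (Md χ M) (dZero (Md χ M) mh) :=
      ⟨dOne_dZero _ mh, isLevelConstantS₁_dZero _ hM' mh⟩
    have e1 : (fun g => dMap χ i (dZero (Md χ M) mh g)) = dZero (Md χ M₁) m₁' := by
      rw [← hmh]
      exact (dZero_comp (dHom χ i) mh).symm
    rw [← e1, hψ₁' _ hbZ, hψ, hφ mh, zero_sub, neg_eq_zero]
    -- `tr (x ∪ d mh) = 0` by Leibniz, `x` being a cone cocycle
    have e2 := dCone2_cupA20 (S := S) χ M x mh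
    have hxZ' := (isZ2c_iff x).1 hxZ
    have hlev := lev_cupA20 χ M hNC hχ hM hxZ'.1.1 hxZ'.1.2 mh
    have e5 : tr.toFun (dCone2 S (kχ χ) (cupA20 χ M x mh)) = 0 :=
      tr.zero_of_isB3c _ (isB3c_dCone2 hlev.1 hlev.2)
    rw [e2, hxZ'.2, cupA3_zero_left, zero_add] at e5
    exact e5
  obtain ⟨x₁, hx₁Z, hx₁⟩ := hA1 ψ₁ hψ₁0
  -- the answer
  refine ⟨x + mapC2 i.hom x₁, isZ2c_add hxZ (isZ2c_mapC2 i hx₁Z), fun b hb => ?_⟩
  have e := hx₁ (fun g => dMap χ i (b g)) (isZ1S_comp (dHom χ i) hb)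
  rw [cupA2_add_left, map_add, cupA2_mapC2, e, hψ₁' b hb, hψ]
  ring

end Fermat.Agent.S55.H49

end
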