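/-
S55 (Poitou–Tate), package E1B: the cochain-level four lemma with cone on the right.
`β¹epi(M₁) ∧ β¹epi(M₂) ∧ β²mono(M₂) ⟹ β¹epi(M)` for `0 → M₁ → M → M₂ → 0`.
Owner: helper49.
-/
import Fermat.Agent.S55.H49_E1A
import Fermat.Agent.S55.Coh.ConeR

set_option autoImplicit false

open CategoryTheory Module groupCohomology ExtCitation

noncomputable section

namespace Fermat.Agent.S55.H49

open Fermat.Agent.S55

variable {k : Type} [Field k] {S : Finset Nat.Primes} {χ : GQ →* kˣ}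

/-- Level-`S` 2-cocycles are pushed forward by morphisms. -/
lemma isZ2S_comp {A B : Rep.{0} k GQ} (u : A ⟶ B) {a : GQ × GQ → A} (ha : IsZ2S S A a) :
    IsZ2S S B (fun t => u.hom (a t)) := by
  refine ⟨?_, levS₂_comp ha.2 _⟩
  rw [dTwo_comp, ha.1]
  funext x
  simp

/-- Cone 1-cocycles are pushed forward by morphisms. -/
lemma isZ1c_mapC1 {A B : Rep.{0} k GQ} (u : A ⟶ B) {y : C1c S A} (hy : IsZ1c S A y) :
    IsZ1c S B (mapC1 u.hom y) := by
  rw [isZ1c_iff] at hy ⊢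
  obtain ⟨hl, hd⟩ := hy
  refine ⟨levS₁_comp hl _, ?_⟩
  rw [dCone1_mapC1, hd]
  refine Prod.ext (funext fun t => ?_) (funext fun q => funext fun t => ?_) <;>
    simp [mapC2]

/-- Cone 1-cocycles are closed under addition. -/
lemma isZ1c_add {M : Rep.{0} k GQ} {y y' : C1c S M} (hy : IsZ1c S M y) (hy' : IsZ1c S M y') :
    IsZ1c S M (y + y') := by
  rw [isZ1c_iff] at hy hy' ⊢
  obtain ⟨hl, hd⟩ := hy
  obtain ⟨hm, hd'⟩ := hy'
  refine ⟨hl.add hm, ?_⟩
  rw [dCone1_add, hd, hd', add_zero]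

/-- `d_cone ∘ d_cone = 0` in degrees `1 → 2 → 3`. -/
lemma dCone2_dCone1 {M : Rep.{0} k GQ} (y : C1c S M) : dCone2 S M (dCone1 S M y) = 0 := by
  refine Prod.ext (dTwo_dOne M y.1) (funext fun q => ?_)
  show resTwo q.1 (dOne M y.1) - dOneL M q.1 (resOne q.1 y.1 - dZeroL M q.1 (y.2 q)) = 0
  rw [resTwo_dOne, dOneL_sub, dOneL_dZeroL, sub_zero, sub_self]

/-- The level-`S` 2-cocycles as a submodule. -/
def Z2S (S : Finset Nat.Primes) (M : Rep.{0} k GQ) : Submodule k (GQ × GQ → M) where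
  carrier := {a | IsZ2S S M a}
  add_mem' := by
    intro a a' ha ha'
    exact ⟨by rw [dTwo_add, ha.1, ha'.1, add_zero], ha.2.add ha'.2⟩
  zero_mem' := ⟨dTwo_zero M, isLevelConstantS₂_const S (0 : M)⟩
  smul_mem' := by
    intro c a ha
    refine ⟨?_, ha.2.comp (c • ·)⟩
    have h := ha.1
    funext x
    have hx := congrFun h x
    simp only [dTwo, Pi.smul_apply, map_smul, Pi.zero_apply] at hx ⊢
    rw [← smul_sub, ← smul_add, ← smul_sub, hx, smul_zero]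

set_option maxHeartbeats 1600000 in
/-- **E1B** from `NC`. -/
theorem stmt_E1B_of_NC (hNC : ∀ S : Finset Nat.Primes, NC S) : Stmt_E1B := by
  intro k _ S χ tr hχ M₁ M M₂ i π hses h₁ hM h₂ hB1 hB2 hBm φ hφ
  obtain ⟨hi, hπ, hex⟩ := hses
  have hNC := hNC S
  have hM' : Lev S (Md χ M) := lev_Md M hχ hM
  -- linear section of `π`, linear retraction of `i`
  obtain ⟨σ, hσ⟩ := LinearMap.exists_rightInverse_of_surjective π.hom.toLinearMap
    (LinearMap.range_eq_top.2 hπ)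
  have hσ' : ∀ m₂ : M₂, π.hom (σ m₂) = m₂ := fun m₂ =>
    congrArg (fun f : M₂ →ₗ[k] M₂ => f m₂) hσ
  obtain ⟨r, hr⟩ := LinearMap.exists_leftInverse_of_injective i.hom.toLinearMap
    (LinearMap.ker_eq_bot.2 hi)
  have hr' : ∀ m₁ : M₁, r (i.hom m₁) = m₁ := fun m₁ =>
    congrArg (fun f : M₁ →ₗ[k] M₁ => f m₁) hr
  have hir : ∀ m : M, π.hom m = 0 → i.hom (r m) = m := by
    intro m hm
    obtain ⟨m₁, rfl⟩ := (hex m).1 hm
    rw [hr']
  have hπi : ∀ m₁ : M₁, π.hom (i.hom m₁) = 0 := fun m₁ => (hex _).2 ⟨m₁, rfl⟩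
  -- the duals of `σ` and `r`
  let F : Md χ M →ₗ[k] Md χ M₂ :=
    { toFun := fun ψ => (show Module.Dual k M from ψ).comp σ
      map_add' := fun _ _ => rfl
      map_smul' := fun _ _ => rfl }
  let ι : Md χ M₁ →ₗ[k] Md χ M :=
    { toFun := fun ψ => (show Module.Dual k M₁ from ψ).comp r
      map_add' := fun _ _ => rfl
      map_smul' := fun _ _ => rfl }
  have hι : ∀ ψ₁ : Md χ M₁, dMap χ i (ι ψ₁) = ψ₁ := by
    intro ψ₁
    apply Md_ext
    intro m₁
    rw [ev_dMap]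
    change (show Module.Dual k M₁ from ψ₁) (r (i.hom m₁)) = _
    rw [hr']
    rfl
  have hF : ∀ ψ : Md χ M, dMap χ i ψ = 0 → dMap χ π (F ψ) = ψ := by
    intro ψ hψ
    apply Md_ext
    intro m
    rw [ev_dMap]
    change (show Module.Dual k M from ψ) (σ (π.hom m)) = (show Module.Dual k M from ψ) m
    have h1 : π.hom (σ (π.hom m) - m) = 0 := by rw [map_sub, hσ', sub_self]
    obtain ⟨m₁, hm₁⟩ := (hex _).1 h1
    have h2 : (show Module.Dual k M from ψ) (i.hom m₁) = 0 :=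
      congrArg (fun ψ' : Md χ M₁ => ev χ M₁ m₁ ψ') hψ
    rw [hm₁, map_sub, sub_eq_zero] at h2
    exact h2
  have hiπ : ∀ ψ₂ : Md χ M₂, dMap χ i (dMap χ π ψ₂) = 0 := fun ψ₂ =>
    dMap_comp_eq_zero χ i π ⟨hi, hπ, hex⟩ ψ₂
  -- Step 1: the functional on `H²_S(M₁)`
  let φ₁ : (GQ × GQ → M₁) →ₗ[k] k := φ.comp (i.hom.toLinearMap.compLeft (GQ × GQ))
  have hφ₁ : ∀ a₁ : GQ × GQ → M₁, IsB2S S M₁ a₁ → φ₁ a₁ = 0 := by
    rintro a₁ ⟨f₁, hf₁, rfl⟩
    apply hφ
    refine ⟨fun g => i.hom (f₁ g), levS₁_comp hf₁ _, ?_⟩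
    rw [dOne_comp]
    rfl
  obtain ⟨y₁, hy₁Z, hy₁⟩ := hB1 φ₁ hφ₁
  have hy₁Z' := (isZ1c_iff y₁).1 hy₁Z
  -- Step 2: lift and take the cone differential
  let yh : C1c S (Md χ M) := mapC1 ι y₁
  have hyhl : IsLevelConstantS₁ S yh.1 := by
    show IsLevelConstantS₁ S (fun g => ι (y₁.1 g))
    exact levS₁_comp hy₁Z'.1 _
  have hiyh : mapC1 (dMap χ i) yh = y₁ := by
    refine Prod.ext (funext fun t => ?_) (funext fun q => ?_)
    · exact hι _
    · exact hι _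
  let ε : C2c S (Md χ M) := dCone1 S (Md χ M) yh
  have hεl : IsLevelConstantS₂ S ε.1 := isLevelConstantS₂_dOne (Md χ M) hNC hM' hyhl
  have hεl' : ∀ q : ↥S, IsLevelConstant₁ (rl q.1) (ε.2 q) := fun q =>
    levL₁_sub q.1 (levL₁_resOne q.1 hyhl) (levL₁_dZeroL q.1 (Md χ M) hM' (yh.2 q))
  have hiε : mapC2 (dMap χ i) ε = 0 := by
    have := dCone1_mapC1 (S := S) (dHom χ i) yh
    have e : mapC1 (dHom χ i).hom yh = y₁ := hiyh
    rw [e, hy₁Z'.2] at this
    exact this.symm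
  let ε₂ : C2c S (Md χ M₂) := mapC2 F ε
  have hπε₂ : mapC2 (dMap χ π) ε₂ = ε := by
    refine Prod.ext (funext fun t => ?_) (funext fun q => funext fun t => ?_)
    · exact hF _ (congrFun (congrArg Prod.fst hiε) t)
    · exact hF _ (congrFun (congrFun (congrArg Prod.snd hiε) q) t)
  have hε₂Z : IsZ2c S (Md χ M₂) ε₂ := by
    rw [isZ2c_iff]
    have hl1 : IsLevelConstantS₂ S ε₂.1 := by
      show IsLevelConstantS₂ S (fun t => F (ε.1 t))
      exact levS₂_comp hεl _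
    have hl2 : ∀ q : ↥S, IsLevelConstant₁ (rl q.1) (ε₂.2 q) := by
      intro q
      show IsLevelConstant₁ (rl q.1) (fun t => F (ε.2 q t))
      exact levL₁_comp q.1 (hεl' q) _
    refine ⟨⟨hl1, hl2⟩, ?_⟩
    have h1 := dCone2_mapC2 (S := S) (dHom χ π) ε₂
    have e : mapC2 (dHom χ π).hom ε₂ = ε := hπε₂
    rw [e] at h1
    have h2 : dCone2 S (Md χ M) ε = 0 := dCone2_dCone1 yh
    rw [h2] at h1
    refine Prod.ext (funext fun t => ?_) (funext fun q => funext fun t => ?_)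
    · apply dMap_injective χ π hπ
      have := congrFun (congrArg Prod.fst h1) t
      simp only [Prod.fst_zero, Pi.zero_apply, map_zero]
      exact this.symm
    · apply dMap_injective χ π hπ
      have := congrFun (congrFun (congrArg Prod.snd h1) q) t
      simp only [Prod.snd_zero, Pi.zero_apply, map_zero]
      exact this.symm
  -- Step 3: `ε₂` pairs to zero with the level-`S` 1-cocycles of `M₂`
  have hstep3 : ∀ a₂ : GQ → M₂, IsZ1S S M₂ a₂ → tr.toFun (cupB2 S χ M₂ a₂ ε₂) = 0 := by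
    intro a₂ ha₂
    let ah : GQ → M := fun g => σ (a₂ g)
    have hahl : IsLevelConstantS₁ S ah := levS₁_comp ha₂.2 _
    have hπah : (fun g => π.hom (ah g)) = a₂ := funext fun g => hσ' _
    have hB : IsB2S S M (dOne M ah) := ⟨ah, hahl, rfl⟩
    have hπd : ∀ t, π.hom (dOne M ah t) = 0 := by
      intro t
      have := congrFun (dOne_comp π ah) t
      rw [hπah, ha₂.1] at this
      exact this.symm
    let a₁ : GQ × GQ → M₁ := fun t => r (dOne M ah t)
    have hia₁ : (fun t => i.hom (a₁ t)) = dOne M ah := funext fun t => hir _ (hπd t)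
    have ha₁Z : IsZ2S S M₁ a₁ := by
      refine ⟨?_, levS₂_comp (isLevelConstantS₂_dOne M hNC hM hahl) _⟩
      funext t
      apply hi
      have := congrFun (dTwo_comp i a₁) t
      rw [hia₁, dTwo_dOne] at this
      simp only [Pi.zero_apply, map_zero]
      exact this.symm
    have e1 : tr.toFun (cupB1 S χ M₁ a₁ y₁) = 0 := by
      rw [hy₁ a₁ ha₁Z]
      show φ (fun t => i.hom (a₁ t)) = 0
      rw [hia₁]
      exact hφ _ hB
    have e2 := dCone2_cupB11 (S := S) χ M ah yh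
    have e3 : cupB1 S χ M (dOne M ah) yh = cupB1 S χ M₁ a₁ y₁ := by
      rw [← hia₁, cupB1_comp, hiyh]
    have e4 : cupB2 S χ M ah (dCone1 S (Md χ M) yh) = cupB2 S χ M₂ a₂ ε₂ := by
      show cupB2 S χ M ah ε = _
      rw [← hπε₂, ← cupB2_comp, hπah]
    have hlev := lev_cupB11 χ M hNC hχ hM hahl hyhl
    have e5 : tr.toFun (dCone2 S (kχ χ) (cupB11 χ M ah yh)) = 0 :=
      tr.zero_of_isB3c _ (isB3c_dCone2 hlev.1 hlev.2)
    rw [e2, e3, e4, map_sub, e1, zero_sub, neg_eq_zero] at e5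
    exact e5
  -- Step 4: correct the lift to a cone cocycle
  obtain ⟨z₂, hz₂l, hz₂⟩ := (isB2c_iff ε₂).1 (hBm ε₂ hε₂Z hstep3)
  let y : C1c S (Md χ M) := yh - mapC1 (dMap χ π) z₂
  have hyZ : IsZ1c S (Md χ M) y := by
    rw [isZ1c_iff]
    have hzl : IsLevelConstantS₁ S (mapC1 (dMap χ π) z₂).1 := by
      show IsLevelConstantS₁ S (fun g => dMap χ π (z₂.1 g))
      exact levS₁_comp hz₂l _
    refine ⟨levS₁_sub hyhl hzl, ?_⟩
    rw [dCone1_sub]
    have := dCone1_mapC1 (S := S) (dHom χ π) z₂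
    have e : mapC1 (dHom χ π).hom z₂ = mapC1 (dMap χ π) z₂ := rfl
    rw [e] at this
    rw [this, ← hz₂]
    show ε - mapC2 (dMap χ π) ε₂ = 0
    rw [hπε₂, sub_self]
  have hiy : mapC1 (dMap χ i) y = y₁ := by
    refine Prod.ext (funext fun t => ?_) (funext fun q => ?_)
    · show dMap χ i (yh.1 t - dMap χ π (z₂.1 t)) = y₁.1 t
      rw [map_sub, hiπ, sub_zero]
      exact hι _
    · show dMap χ i (yh.2 q - dMap χ π (z₂.2 q)) = y₁.2 q
      rw [map_sub, hiπ, sub_zero]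
      exact hι _
  have hyZ' := (isZ1c_iff y).1 hyZ
  -- Step 5: the difference functional factors through `H²_S(M₂)`
  let ψ : (GQ × GQ → M) →ₗ[k] k := φ - tr.toFun.comp (cupB1ₗ S χ M y)
  have hψ : ∀ a, ψ a = φ a - tr.toFun (cupB1 S χ M a y) := fun a => rfl
  have hψB : ∀ f : GQ → M, IsLevelConstantS₁ S f → ψ (dOne M f) = 0 := by
    intro f hf
    rw [hψ, hφ _ ⟨f, hf, rfl⟩, zero_sub, neg_eq_zero]
    have e2 := dCone2_cupB11 (S := S) χ M f y
    have hlev := lev_cupB11 χ M hNC hχ hM hf hyZ'.1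
    have e5 : tr.toFun (dCone2 S (kχ χ) (cupB11 χ M f y)) = 0 :=
      tr.zero_of_isB3c _ (isB3c_dCone2 hlev.1 hlev.2)
    rw [e2, hyZ'.2, cupB2_zero_right, sub_zero] at e5
    exact e5
  have hψ₁ : ∀ a₁ : GQ × GQ → M₁, IsZ2S S M₁ a₁ → ψ (fun t => i.hom (a₁ t)) = 0 := by
    intro a₁ ha₁
    rw [hψ, cupB1_comp, hiy, hy₁ a₁ ha₁]
    exact sub_self _
  have hker : ∀ a ∈ Z2S S M, (π.hom.toLinearMap.compLeft (GQ × GQ)) a = 0 → ψ a = 0 := by
    intro a ha ha'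
    have hπa : ∀ t, π.hom (a t) = 0 := fun t => congrFun ha' t
    have hia : (fun t => i.hom (r (a t))) = a := funext fun t => hir _ (hπa t)
    have hra : IsZ2S S M₁ (fun t => r (a t)) := by
      refine ⟨?_, levS₂_comp ha.2 _⟩
      funext t
      apply hi
      have := congrFun (dTwo_comp i (fun t => r (a t))) t
      rw [hia, ha.1] at this
      simp only [Pi.zero_apply, map_zero]
      exact this.symm
    rw [← hia]
    exact hψ₁ _ hra
  obtain ⟨ψ₂, hψ₂⟩ := exists_functional_factor (Z2S S M)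
    (π.hom.toLinearMap.compLeft (GQ × GQ)) ψ hker
  have hψ₂' : ∀ a : GQ × GQ → M, IsZ2S S M a → ψ₂ (fun t => π.hom (a t)) = ψ a :=
    fun a ha => hψ₂ a ha
  have hψ₂B : ∀ a₂ : GQ × GQ → M₂, IsB2S S M₂ a₂ → ψ₂ a₂ = 0 := by
    rintro a₂ ⟨f₂, hf₂, rfl⟩
    have hl : IsLevelConstantS₁ S (fun g => σ (f₂ g)) := levS₁_comp hf₂ _
    have hZ : IsZ2S S M (dOne M (fun g => σ (f₂ g))) :=
      ⟨dTwo_dOne M _, isLevelConstantS₂_dOne M hNC hM hl⟩
    have e : (fun t => π.hom (dOne M (fun g => σ (f₂ g)) t)) = dOne M₂ f₂ := by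
      rw [← dOne_comp]
      congr 1
      funext g
      exact hσ' _
    rw [← e, hψ₂' _ hZ]
    exact hψB _ hl
  obtain ⟨y₂, hy₂Z, hy₂⟩ := hB2 ψ₂ hψ₂B
  -- the answer
  refine ⟨y + mapC1 (dMap χ π) y₂, isZ1c_add hyZ (isZ1c_mapC1 (dHom χ π) hy₂Z), fun a ha => ?_⟩
  have e := hy₂ (fun t => π.hom (a t)) (isZ2S_comp π ha)
  rw [cupB1_add_right, map_add, ← cupB1_comp, e, hψ₂' a ha, hψ]
  ring

end Fermat.Agent.S55.H49

end
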