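/-
S55 (Poitou–Tate): packages E1A and E1B, unconditional form
(the normal-closure lemma NC is `H48.exists_normal_level`).  Owner: helper49.
-/
import Fermat.Agent.S55.H49_E1B
import Fermat.Agent.S55.H48_NC

set_option autoImplicit false

namespace Fermat.Agent.S55.H49

open Fermat.Agent.S55

/-- **NC** for every finite set of primes. -/
theorem nc_all (S : Finset Nat.Primes) : NC S :=
  fun F hF => H48.exists_normal_level S F hF

/-- **E1A**. -/
theorem stmt_E1A : Stmt_E1A := stmt_E1A_of_NC nc_all

/-- **E1B**. -/
theorem stmt_E1B : Stmt_E1B := stmt_E1B_of_NC nc_all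

end Fermat.Agent.S55.H49
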