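/-
S55 (Poitou–Tate), package E5, part 3: the bridge between the prelude's `sha₁`, `sha₂`
(Mathlib's `H1`, the prelude's `continuousH2S`) and explicit cochains.
Owner: helper48.
-/
import Fermat.Agent.S55.Coh.Level
import Fermat.Agent.S55.Coh.Stmts

set_option autoImplicit false

open CategoryTheory Module groupCohomology ExtCitation

noncomputable section

namespace Fermat.Agent.S55.H48

open Fermat.Agent.S55

variable {k : Type} [Field k] (S : Finset Nat.Primes)

/-! ### Dictionary for the differentials -/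

section dict

variable (A : Rep.{0} k GQ)

lemma d01_eq (m : A) : (d₀₁ A).hom m = dZero A m := rfl

lemma d12_eq (f : GQ → A) : (d₁₂ A).hom f = dOne A f := rfl

lemma d23_eq (f : GQ × GQ → A) : (d₂₃ A).hom f = dTwo A f := rfl

lemma mem_cocycles₁_iff_dOne (f : GQ → A) : f ∈ cocycles₁ A ↔ dOne A f = 0 :=
  LinearMap.mem_ker

lemma mem_cocycles₂_iff_dTwo (f : GQ × GQ → A) : f ∈ cocycles₂ A ↔ dTwo A f = 0 :=
  LinearMap.mem_ker

end dict

/-! ### Restriction of classes in `H¹` -/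

section resH1

variable (A : Rep.{0} k GQ) {H : Type} [Group H] (r : H →* GQ)

/-- The restriction of the class of a cocycle vanishes iff the restricted cocycle is a
coboundary. -/
theorem res_H1π_eq_zero_iff (c : cocycles₁ A) :
    (groupCohomology.map r (𝟙 (Rep.res r A)) 1).hom ((H1π A).hom c) = 0
      ↔ ∃ m : A, ∀ h : H, (c : GQ → A) (r h) = A.ρ (r h) m - m := by
  have h := H1π_comp_map (A := A) (B := Rep.res r A) r (𝟙 (Rep.res r A))
  have h2 : (groupCohomology.map r (𝟙 (Rep.res r A)) 1).hom ((H1π A).hom c) =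
      (H1π (Rep.res r A)).hom ((mapCocycles₁ r (𝟙 (Rep.res r A))).hom c) :=
    congrArg (fun f => f.hom c) h
  rw [h2]
  refine (H1π_eq_zero_iff _).trans ?_
  constructor
  · rintro ⟨m, hm⟩
    refine ⟨m, fun h => ?_⟩
    have := congrFun hm h
    rw [d₀₁_hom_apply] at this
    exact this.symm
  · rintro ⟨m, hm⟩
    refine ⟨m, funext fun h => ?_⟩
    rw [d₀₁_hom_apply]
    exact (hm h).symm

end resH1

/-! ### The archimedean place -/

section arch

/-- The decomposition group at infinity has at most two elements. -/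
theorem mem_arch_cases (h : ↥archimedeanDecomposition) :
    archimedeanLoc h = 1 ∨ archimedeanLoc h = complexConjugation := by
  obtain ⟨g, hg⟩ := h
  obtain ⟨n, rfl⟩ := Subgroup.mem_zpowers_iff.1 hg
  show complexConjugation ^ n = 1 ∨ complexConjugation ^ n = complexConjugation
  have h2 : complexConjugation ^ (2 : ℤ) = 1 := by
    rw [zpow_ofNat]; exact complexConjugation_sq
  have hn : n = 2 * (n / 2) + n % 2 := (Int.mul_ediv_add_emod n 2).symm
  have e : complexConjugation ^ n = complexConjugation ^ (n % 2) := by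
    conv_lhs => rw [hn, zpow_add, zpow_mul, h2, one_zpow, one_mul]
  rcases Int.emod_two_eq_zero_or_one n with h0 | h1
  · left; rw [e, h0, zpow_zero]
  · right; rw [e, h1, zpow_one]

variable (A : Rep.{0} k GQ)

/-- A 1-cocycle is a coboundary on the decomposition group at infinity when `2` is
invertible. -/
theorem arch_H1_trivial (h2 : (2 : k) ≠ 0) {b : GQ → A} (hb : dOne A b = 0) :
    ∃ m : A, ∀ h : ↥archimedeanDecomposition,
      b (archimedeanLoc h) = A.ρ (archimedeanLoc h) m - m := by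
  have hc : ∀ g h : GQ, b (g * h) = A.ρ g (b h) + b g := by
    intro g h
    have := congrFun hb (g, h)
    simp only [dOne, Pi.zero_apply] at this
    have e : b (g * h) = A.ρ g (b h) + b g - (A.ρ g (b h) - b (g * h) + b g) := by abel
    rw [e, this, sub_zero]
  have h1 : b 1 = 0 := by
    have := hc 1 1
    rw [mul_one, map_one, Module.End.one_apply] at this
    exact left_eq_add.1 this |>.symm ▸ rfl
  have hσ : A.ρ complexConjugation (b complexConjugation) = - b complexConjugation := by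
    have := hc complexConjugation complexConjugation
    rw [complexConjugation_mul_self, h1] at this
    exact eq_neg_of_add_eq_zero_left this.symm
  refine ⟨-((2 : k)⁻¹ • b complexConjugation), fun h => ?_⟩
  rcases mem_arch_cases h with e | e
  · rw [e, h1, map_one, Module.End.one_apply, sub_self]
  · rw [e, map_neg, map_smul, hσ, smul_neg, neg_neg, sub_neg_eq_add, ← add_smul,
      ← two_mul, mul_inv_cancel₀ h2, one_smul]

/-- A level 2-cocycle is a level coboundary on the decomposition group at infinity when `2`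
is invertible. -/
theorem arch_H2_trivial (h2 : (2 : k) ≠ 0) {a : GQ × GQ → A} (ha : dTwo A a = 0)
    (hl : IsLevelConstantS₂ S a) :
    ∃ x : ↥archimedeanDecomposition → A, IsLevelConstant₁ archimedeanLoc x ∧
      ∀ h₁ h₂ : ↥archimedeanDecomposition,
        a (archimedeanLoc h₁, archimedeanLoc h₂) =
          A.ρ (archimedeanLoc h₁) (x h₂) - x (h₁ * h₂) + x h₁ := by
  have hc : ∀ g h j : GQ,
      A.ρ g (a (h, j)) - a (g * h, j) + a (g, h * j) - a (g, h) = 0 := by
    intro g h j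
    have := congrFun ha (g, h, j)
    simpa only [dTwo, Pi.zero_apply] using this
  set σ : GQ := complexConjugation with hσdef
  have hσσ : σ * σ = 1 := complexConjugation_mul_self
  let X : GQ → A := fun g => (2 : k)⁻¹ • (a (g, 1) + a (g, σ))
  have hX2 : ∀ g : GQ, a (g, 1) + a (g, σ) = (2 : k) • X g := by
    intro g
    show _ = (2 : k) • ((2 : k)⁻¹ • _)
    rw [smul_smul, mul_inv_cancel₀ h2, one_smul]
  have key : ∀ g h : GQ, (h = 1 ∨ h = σ) →
      a (g, h) = A.ρ g (X h) - X (g * h) + X g := by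
    intro g h hh
    have e1 := hc g h 1
    have e2 := hc g h σ
    rw [mul_one] at e1
    have hsum : (2 : k) • (A.ρ g (X h) - X (g * h) + X g) = (2 : k) • a (g, h) := by
      rw [smul_add, smul_sub, ← map_smul, ← hX2 h, ← hX2 (g * h), ← hX2 g, map_add, two_smul]
      rcases hh with rfl | rfl
      · simp only [one_mul, mul_one] at e1 e2 ⊢
        have : A.ρ g (a (1, 1)) + A.ρ g (a (1, σ)) - (a (g, 1) + a (g, σ)) + (a (g, 1) + a (g, σ))
            - (a (g, 1) + a (g, 1)) =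
            (A.ρ g (a (1, 1)) - a (g, 1) + a (g, 1) - a (g, 1)) +
              (A.ρ g (a (1, σ)) - a (g, σ) + a (g, σ) - a (g, 1)) := by abel
        rw [← sub_eq_zero, this, e1, e2, add_zero]
      · rw [hσσ] at e2
        have : A.ρ g (a (σ, 1)) + A.ρ g (a (σ, σ)) - (a (g * σ, 1) + a (g * σ, σ))
            + (a (g, 1) + a (g, σ)) - (a (g, σ) + a (g, σ)) =
            (A.ρ g (a (σ, 1)) - a (g * σ, 1) + a (g, σ) - a (g, σ)) +
              (A.ρ g (a (σ, σ)) - a (g * σ, σ) + a (g, 1) - a (g, σ)) := by abel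
        rw [← sub_eq_zero, this, e1, e2, add_zero]
    have := congrArg (fun v => (2 : k)⁻¹ • v) hsum
    simp only [smul_smul, inv_mul_cancel₀ h2, one_smul] at this
    exact this.symm
  refine ⟨fun h => X (archimedeanLoc h), ?_, fun h₁ h₂ => ?_⟩
  · obtain ⟨F, hF, hlev⟩ := hl
    refine ⟨F, hF.1, fun g s hs => ?_⟩
    show X (archimedeanLoc (g * s)) = X (archimedeanLoc g)
    rw [map_mul]
    show (2 : k)⁻¹ • _ = (2 : k)⁻¹ • _
    have e1 := hlev (archimedeanLoc g) 1 (archimedeanLoc s) 1 hs (Subgroup.one_mem _)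
    have e2 := hlev (archimedeanLoc g) σ (archimedeanLoc s) 1 hs (Subgroup.one_mem _)
    rw [mul_one] at e1 e2
    rw [e1, e2]
  · show _ = A.ρ _ (X _) - X (archimedeanLoc (h₁ * h₂)) + X _
    rw [map_mul]
    exact key _ _ (mem_arch_cases h₂)

end arch

/-! ### `sha₁` in terms of cocycles -/

section sha1

variable (A : Rep.{0} k GQ)

/-- Locally trivial level-`S` 1-cocycles (explicit form). -/
def IsSha1 (b : GQ → A) : Prop :=
  IsZ1S S A b ∧ ∀ q : ↥S, ∃ m : A, resOne q.1 b = dZeroL A q.1 m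

/-- The level-`S` cocycles whose class lies in `sha₁`. -/
def shaZ1 : Submodule k (cocycles₁ A) :=
  levelCocyclesS₁ S A ⊓ (sha₁ S A).comap (H1π A).hom

/-- The projection onto `sha₁`. -/
def shaπ1 : ↥(shaZ1 S A) →ₗ[k] ↥(sha₁ S A) :=
  ((H1π A).hom.comp (shaZ1 S A).subtype).codRestrict (sha₁ S A) (fun c => c.2.2)

lemma shaπ1_coe (c : ↥(shaZ1 S A)) : ((shaπ1 S A c : ↥(sha₁ S A)) : H1 A) = (H1π A).hom c.1 :=
  rfl

theorem shaπ1_surjective : Function.Surjective (shaπ1 S A) := by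
  rintro ⟨β, hβ⟩
  obtain ⟨c, hc, rfl⟩ := (mem_continuousH1S_iff S A β).1 hβ.1
  exact ⟨⟨c, hc, hβ⟩, Subtype.ext rfl⟩

theorem shaπ1_eq_zero_iff (c : ↥(shaZ1 S A)) :
    shaπ1 S A c = 0 ↔ ∃ m : A, ((c.1 : cocycles₁ A) : GQ → A) = dZero A m := by
  rw [← Subtype.coe_inj, shaπ1_coe]
  refine (H1π_eq_zero_iff _).trans ?_
  constructor
  · rintro ⟨m, hm⟩
    exact ⟨m, hm.symm⟩
  · rintro ⟨m, hm⟩
    exact ⟨m, hm.symm⟩

/-- Elements of `shaZ1` are locally trivial level-`S` cocycles. -/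
theorem isSha1_of_mem (c : ↥(shaZ1 S A)) : IsSha1 S A ((c.1 : cocycles₁ A) : GQ → A) := by
  obtain ⟨c, hl, hc⟩ := c
  refine ⟨⟨(mem_cocycles₁_iff_dOne A _).1 c.2, hl⟩, fun q => ?_⟩
  have h0 : locTotal (extArithLoc S) A ((H1π A).hom c) = 0 := hc.2
  have h1 : (locRes (extArithLoc S) A (Sum.inr q)).hom ((H1π A).hom c) = 0 :=
    congrFun h0 (Sum.inr q)
  obtain ⟨m, hm⟩ := (res_H1π_eq_zero_iff A (extArithLoc S (Sum.inr q)) c).1 h1
  exact ⟨m, funext fun h => hm h⟩

/-- Conversely, a locally trivial level-`S` cocycle gives an element of `shaZ1`, if `2` is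
invertible. -/
theorem exists_mem_of_isSha1 (h2 : (2 : k) ≠ 0) {b : GQ → A} (hb : IsSha1 S A b) :
    ∃ c : ↥(shaZ1 S A), ((c.1 : cocycles₁ A) : GQ → A) = b := by
  obtain ⟨⟨hd, hl⟩, hloc⟩ := hb
  let c : cocycles₁ A := ⟨b, (mem_cocycles₁_iff_dOne A b).2 hd⟩
  have hc1 : c ∈ levelCocyclesS₁ S A := hl
  have hc2 : (H1π A).hom c ∈ sha₁ S A := by
    refine ⟨(mem_continuousH1S_iff S A _).2 ⟨c, hl, rfl⟩, ?_⟩
    show locTotal (extArithLoc S) A ((H1π A).hom c) = 0
    funext v
    show (locRes (extArithLoc S) A v).hom ((H1π A).hom c) = 0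
    rw [res_H1π_eq_zero_iff A (extArithLoc S v) c]
    rcases v with v | q
    · exact arch_H1_trivial A h2 hd
    · obtain ⟨m, hm⟩ := hloc q
      exact ⟨m, fun h => congrFun hm h⟩
  exact ⟨⟨c, hc1, hc2⟩, rfl⟩

end sha1

/-! ### `sha₂` in terms of cocycles -/

section sha2

variable (M : Rep.{0} k GQ)

/-- Locally trivial level-`S` 2-cocycles (explicit form). -/
def IsSha2 (a : GQ × GQ → M) : Prop :=
  IsZ2S S M a ∧ ∀ q : ↥S, ∃ g : Gl q.1 → M, IsLevelConstant₁ (rl q.1) g ∧
    resTwo q.1 a = dOneL M q.1 g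

/-- The level-`S` 2-cocycles whose class lies in `sha₂`. -/
def shaZ2 : Submodule k ↥(levelCocyclesS₂ S M) :=
  (sha₂ S M).comap (continuousH2Sπ S M)

/-- The projection onto `sha₂`. -/
def shaπ2 : ↥(shaZ2 S M) →ₗ[k] ↥(sha₂ S M) :=
  ((continuousH2Sπ S M).comp (shaZ2 S M).subtype).codRestrict (sha₂ S M) (fun a => a.2)

lemma shaπ2_coe (a : ↥(shaZ2 S M)) :
    ((shaπ2 S M a : ↥(sha₂ S M)) : continuousH2S S M) = continuousH2Sπ S M a.1 := rfl

theorem shaπ2_surjective : Function.Surjective (shaπ2 S M) := by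
  rintro ⟨α, hα⟩
  obtain ⟨a, rfl⟩ := Submodule.mkQ_surjective _ α
  exact ⟨⟨a, hα⟩, Subtype.ext rfl⟩

theorem shaπ2_eq_zero_iff (a : ↥(shaZ2 S M)) :
    shaπ2 S M a = 0 ↔ IsB2S S M (a.1.1 : GQ × GQ → M) := by
  rw [← Subtype.coe_inj, shaπ2_coe]
  refine (continuousH2Sπ_eq_zero_iff S M a.1).trans ?_
  rw [mem_levelCoboundariesS₂_iff]
  constructor
  · rintro ⟨x, hx, h⟩
    exact ⟨x, hx, h⟩
  · rintro ⟨x, hx, h⟩
    exact ⟨x, hx, h⟩

/-- The restriction of the class of a level-`S` 2-cocycle vanishes iff the restricted cocycle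
is the coboundary of a level-constant cochain. -/
theorem locRes₂S_eq_zero_iff {H : Type} [Group H] (r : H →* GQ)
    (a : ↥(levelCocyclesS₂ S M)) :
    locRes₂S S M r (continuousH2Sπ S M a) = 0 ↔
      ∃ x : H → M, IsLevelConstant₁ r x ∧ ∀ h₁ h₂ : H,
        (a.1 : GQ × GQ → M) (r h₁, r h₂) = M.ρ (r h₁) (x h₂) - x (h₁ * h₂) + x h₁ := by
  have e : locRes₂S S M r (continuousH2Sπ S M a) =
      continuousH2π r (Rep.res r M)
        (levelCocycles₂Map (rH := MonoidHom.id _) (rG := r) r (fun _ => rfl)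
          (LinearMap.id : M →ₗ[k] Rep.res r M) (fun _ _ => rfl)
          (levelCocyclesS₂ToLevelCocycles₂ S M a)) := rfl
  rw [e, continuousH2π_eq_zero_iff, mem_levelCoboundaries₂_iff]
  constructor
  · rintro ⟨x, hx, h⟩
    refine ⟨x, hx, fun h₁ h₂ => ?_⟩
    have := congrFun h (h₁, h₂)
    rw [d₁₂_hom_apply] at this
    exact this.symm
  · rintro ⟨x, hx, h⟩
    refine ⟨x, hx, funext fun t => ?_⟩
    rw [d₁₂_hom_apply]
    exact (h t.1 t.2).symm

/-- Elements of `shaZ2` are locally trivial level-`S` 2-cocycles. -/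
theorem isSha2_of_mem (a : ↥(shaZ2 S M)) : IsSha2 S M (a.1.1 : GQ × GQ → M) := by
  obtain ⟨a, ha⟩ := a
  refine ⟨⟨(mem_cocycles₂_iff_dTwo M _).1 a.2.1, a.2.2⟩, fun q => ?_⟩
  have h0 : locTotal₂S S M (continuousH2Sπ S M a) = 0 := ha
  have h1 : locRes₂S S M (extArithLoc S (Sum.inr q)) (continuousH2Sπ S M a) = 0 :=
    congrFun h0 (Sum.inr q)
  obtain ⟨x, hx, h⟩ := (locRes₂S_eq_zero_iff S M (extArithLoc S (Sum.inr q)) a).1 h1
  exact ⟨x, hx, funext fun t => h t.1 t.2⟩

/-- Conversely, a locally trivial level-`S` 2-cocycle gives an element of `shaZ2`, if `2` is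
invertible. -/
theorem exists_mem_of_isSha2 (h2 : (2 : k) ≠ 0) {a : GQ × GQ → M} (ha : IsSha2 S M a) :
    ∃ c : ↥(shaZ2 S M), (c.1.1 : GQ × GQ → M) = a := by
  obtain ⟨⟨hd, hl⟩, hloc⟩ := ha
  let c : ↥(levelCocyclesS₂ S M) := ⟨a, (mem_cocycles₂_iff_dTwo M a).2 hd, hl⟩
  have hc : continuousH2Sπ S M c ∈ sha₂ S M := by
    show locTotal₂S S M (continuousH2Sπ S M c) = 0
    funext v
    show locRes₂S S M (extArithLoc S v) (continuousH2Sπ S M c) = 0
    rw [locRes₂S_eq_zero_iff S M (extArithLoc S v) c]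
    rcases v with v | q
    · exact arch_H2_trivial S M h2 hd hl
    · obtain ⟨g, hg, h⟩ := hloc q
      exact ⟨g, hg, fun h₁ h₂ => congrFun h (h₁, h₂)⟩
  exact ⟨⟨c, hc⟩, rfl⟩

end sha2

end Fermat.Agent.S55.H48

end
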