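/-
S55 (Poitou–Tate): the frozen statement from the THREE remaining inputs of E4, all in the GS
island: `Top.Stmt_I2` (`H³_S = 0`), `Top.Stmt_I3` (Euler characteristic), `Top.Stmt_I4` (the
cokernel of `H²_S → ⊕ H²(K_w)`).
`Top.Stmt_I1` is helper5's `CFT.LOC.H5.stmt_I1`, `Top.Stmt_TopQ0` follows from `I4` and helper68's
`CFT.LOC.H68.stmt_TQ_Loc` by `Top.H48.stmt_TopQ0_of`.
Owner: helper48.
-/
import Fermat.Agent.S55.H49_AssemblyI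
import Fermat.Agent.S55.Top.H48_TQ
import Fermat.Agent.S55.CFT.LOC.H68_TQLFinal
import Fermat.Agent.S55.CFT.LOC.H5_I1

set_option autoImplicit false

open CategoryTheory Module groupCohomology ExtCitation

namespace Fermat.Agent.S55.H48

open Fermat.Agent.S55

/-- `H³_c(ℚ, μ_p) ≠ 0` from `I4`. -/
theorem stmt_TopQ0_of_I4 (h4 : Top.Stmt_I4) : Top.Stmt_TopQ0 :=
  Top.H48.stmt_TopQ0_of h4 CFT.LOC.H68.stmt_TQ_Loc

/-- `Stmt_TopK` from `I2`, `I3`, `I4`. -/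
theorem stmt_TopK_of_GS (h2 : Top.Stmt_I2) (h3 : Top.Stmt_I3) (h4 : Top.Stmt_I4) :
    Top.Stmt_TopK :=
  H49.stmt_TopK_of_I CFT.LOC.H5.stmt_I1 h2 h3 h4

/-- The frozen statement S55 from `Top.Stmt_I2`, `Top.Stmt_I3`, `Top.Stmt_I4`. -/
theorem result_of_GS (h2 : Top.Stmt_I2) (h3 : Top.Stmt_I3) (h4 : Top.Stmt_I4)
    {p : ℕ} [Fact p.Prime] (hp2 : p ≠ 2) (S : Finset Nat.Primes) (hpS : pPrime p ∈ S)
    (M : Rep.{0} (ZMod p) (AlgebraicClosure ℚ ≃ₐ[ℚ] AlgebraicClosure ℚ))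
    [FiniteDimensional (ZMod p) M]
    (hsm : ∀ m : M, ∃ F : IntermediateField ℚ (AlgebraicClosure ℚ), FiniteDimensional ℚ F ∧
      ∀ s ∈ F.fixingSubgroup, M.ρ s m = m)
    (hMur : ∀ q : Nat.Primes, q ∉ S → ∀ A : ValuationSubring (AlgebraicClosure ℚ),
      A.LiesOverPrime (q : ℕ) → ∀ g ∈ A.inertiaSubgroupIn ℚ, M.ρ g = 1) :
    ∃ B : sha₁ S (M.dualTwist (cycloChar p)) →ₗ[ZMod p] sha₂ S M →ₗ[ZMod p] ZMod p,
      (∀ y, (∀ x, B y x = 0) → y = 0) ∧ (∀ x, (∀ y, B y x = 0) → x = 0) :=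
  H49.result_of_I (stmt_TopQ0_of_I4 h4) CFT.LOC.H5.stmt_I1 h2 h3 h4 hp2 S hpS M hsm hMur

end Fermat.Agent.S55.H48
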