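import Fermat.Agent.S55.Coh.Stmts

/-!
# S55 (Poitou–Tate), package E3, part 1 (helper13): coinduction and dévissage

* `Ind H V`: the coinduced module of a representation `V` of a subgroup `H ≤ G_ℚ`
  (Mathlib's `Rep.coind`), exactness (`indMap_isSES`), level (`lev_ind`);
* `isRetract_ind`: `M` is a retract of `Ind H (Res M)` when `[G_ℚ : H]` is invertible in `k`;
* `ind_iso_perm`: `Ind H V ≅ k[G_ℚ/H]` for `V` one-dimensional with trivial action;
* `exists_fixed_vector`, `exists_fixed_functional`: a group acting through a finite `p`-group on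
  a nonzero vector space in characteristic `p` fixes a nonzero vector (functional);
* `dev_ind`: the coinduction of a module on which `H` acts through a finite `p`-group is built
  from copies of `k[G_ℚ/H]` (from both sides).
-/

set_option autoImplicit false
set_option linter.style.haveILetI false
set_option linter.unusedSectionVars false
set_option linter.unusedVariables false

noncomputable section

namespace Fermat.Agent.S55.H13

open CategoryTheory Module groupCohomology ExtCitation Fermat.Agent.S55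

section Fixed

variable {p : ℕ} [Fact p.Prime] {k : Type} [Field k] {G : Type} [Group G]
  {V : Type} [AddCommGroup V] [Module k V]

theorem orbit_finite (ρ : Representation k G V) (U : Subgroup G) [U.FiniteIndex]
    (hU : ∀ u ∈ U, ρ u = 1) (v : V) : (Set.range fun g : G => ρ g v).Finite := by
  haveI : Finite (G ⧸ U) := Subgroup.finite_quotient_of_finiteIndex
  let φ : G ⧸ U → V := Quotient.lift (fun g : G => ρ g v) (by
    intro a b hab
    have hab' : a⁻¹ * b ∈ U := QuotientGroup.leftRel_apply.mp hab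
    show ρ a v = ρ b v
    have : b = a * (a⁻¹ * b) := by group
    rw [this, map_mul, hU _ hab', mul_one])
  have : (Set.range fun g : G => ρ g v) ⊆ Set.range φ := by
    rintro _ ⟨g, rfl⟩
    exact ⟨QuotientGroup.mk g, rfl⟩
  exact (Set.finite_range φ).subset this

theorem exists_fixed_vector_aux [Module (ZMod p) V] (ρ : Representation k G V) [Nontrivial V]
    (U : Subgroup G) [U.FiniteIndex] (hU : ∀ u ∈ U, ρ u = 1)
    (hp : ∀ g : G, ∃ n : ℕ, g ^ (p ^ n) ∈ U) :
    ∃ v : V, v ≠ 0 ∧ ∀ g, ρ g v = v := by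
  have hpprime : p.Prime := Fact.out
  obtain ⟨v₀, hv₀⟩ := exists_ne (0 : V)
  have hpV : ∀ x : V, p • x = 0 := by
    intro x
    have : (p : ZMod p) • x = 0 := by rw [ZMod.natCast_self, zero_smul]
    rwa [Nat.cast_smul_eq_nsmul] at this
  have hO := orbit_finite ρ U hU v₀
  obtain ⟨W, hWdef⟩ : ∃ W : Submodule (ZMod p) V,
      W = Submodule.span (ZMod p) (Set.range fun g : G => ρ g v₀) := ⟨_, rfl⟩
  haveI : Module.Finite (ZMod p) W := by
    rw [hWdef]; exact Module.Finite.span_of_finite (ZMod p) hO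
  haveI : Finite W := Module.finite_of_finite (ZMod p)
  have hv₀W : v₀ ∈ W := by
    rw [hWdef]; exact Submodule.subset_span ⟨1, by simp⟩
  have hstab : ∀ g : G, ∀ x ∈ W, ρ g x ∈ W := by
    intro g x hx
    rw [hWdef] at hx ⊢
    induction hx using Submodule.span_induction with
    | mem y hy =>
      obtain ⟨g', rfl⟩ := hy
      apply Submodule.subset_span
      exact ⟨g * g', by simp [map_mul]⟩
    | zero => rw [map_zero]; exact Submodule.zero_mem _
    | add x y _ _ hx hy => rw [map_add]; exact Submodule.add_mem _ hx hy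
    | smul c x _ hx =>
      rw [ZMod.map_smul (ρ g) c x]
      exact Submodule.smul_mem _ c hx
  letI : MulAction G W :=
    { smul := fun g w => ⟨ρ g w.1, hstab g w.1 w.2⟩
      one_smul := fun w => Subtype.ext (by show ρ 1 w.1 = w.1; rw [map_one]; rfl)
      mul_smul := fun g g' w => Subtype.ext (by
        show ρ (g * g') w.1 = ρ g (ρ g' w.1); rw [map_mul]; rfl) }
  have hsmul : ∀ (g : G) (w : W), ((g • w : W) : V) = ρ g w.1 := fun g w => rfl
  let P : Subgroup (Equiv.Perm W) := (MulAction.toPermHom G W).range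
  have hP : IsPGroup p P := by
    rintro ⟨x, g, rfl⟩
    obtain ⟨n, hn⟩ := hp g
    refine ⟨n, Subtype.ext ?_⟩
    show (MulAction.toPermHom G W g) ^ (p ^ n) = 1
    rw [← map_pow]
    ext w
    show ((g ^ p ^ n • w : W) : V) = w
    rw [hsmul, hU _ hn]
    rfl
  have hcard : p ∣ Nat.card W := by
    have h1 : addOrderOf (⟨v₀, hv₀W⟩ : W) = p := by
      apply addOrderOf_eq_prime
      · apply Subtype.ext
        show p • v₀ = 0
        exact hpV v₀
      · intro h
        exact hv₀ (congrArg Subtype.val h)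
    have h2 := addOrderOf_dvd_natCard (⟨v₀, hv₀W⟩ : W)
    rwa [h1] at h2
  have h0 : (0 : W) ∈ MulAction.fixedPoints P W := by
    rintro ⟨x, g, rfl⟩
    show (MulAction.toPermHom G W g) (0 : W) = 0
    apply Subtype.ext
    show ρ g 0 = 0
    exact map_zero _
  obtain ⟨b, hb, hb0⟩ := hP.exists_fixed_point_of_prime_dvd_card_of_fixed_point W hcard h0
  refine ⟨b.1, fun h => hb0 (Subtype.ext h.symm), fun g => ?_⟩
  have := hb ⟨MulAction.toPermHom G W g, g, rfl⟩
  exact congrArg Subtype.val this

theorem exists_fixed_vector [CharP k p] (ρ : Representation k G V) [Nontrivial V] (U : Subgroup G)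
    [U.FiniteIndex] (hU : ∀ u ∈ U, ρ u = 1) (hp : ∀ g : G, ∃ n : ℕ, g ^ (p ^ n) ∈ U) :
    ∃ v : V, v ≠ 0 ∧ ∀ g, ρ g v = v := by
  have hpV : ∀ x : V, p • x = 0 := by
    intro x
    rw [← Nat.cast_smul_eq_nsmul k, CharP.cast_eq_zero k p, zero_smul]
  letI : Module (ZMod p) V := AddCommGroup.zmodModule hpV
  exact exists_fixed_vector_aux (p := p) ρ U hU hp

theorem exists_fixed_functional [CharP k p] (ρ : Representation k G V) [Nontrivial V]
    [FiniteDimensional k V] (U : Subgroup G)
    [U.FiniteIndex] (hU : ∀ u ∈ U, ρ u = 1) (hp : ∀ g : G, ∃ n : ℕ, g ^ (p ^ n) ∈ U) :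
    ∃ l : V →ₗ[k] k, l ≠ 0 ∧ ∀ g v, l (ρ g v) = l v := by
  haveI : Nontrivial (Module.Dual k V) := inferInstance
  obtain ⟨l, hl0, hl⟩ := exists_fixed_vector (p := p) ρ.dual U (fun u hu => by
    ext f v
    rw [Representation.dual_apply]
    show f (ρ u⁻¹ v) = f v
    rw [hU _ (U.inv_mem hu)]
    rfl) hp
  refine ⟨l, hl0, fun g v => ?_⟩
  have := congrArg (fun f : Module.Dual k V => f v) (hl g⁻¹)
  rw [Representation.dual_apply, inv_inv] at this
  exact this

end Fixed

variable {k : Type} [Field k] (H : Subgroup GQ)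

/-- Coinduction from `H` to `G_ℚ`. -/
abbrev Ind (V : Rep.{0} k H) : Rep.{0} k GQ := Rep.coind H.subtype V

theorem ind_apply (V : Rep.{0} k H) (f : Ind H V) (g x : GQ) :
    (((Ind H V).ρ g f : Ind H V) : GQ → V) x = (f : GQ → V) (x * g) := rfl

theorem ind_mem (V : Rep.{0} k H) (f : Ind H V) (h : H) (x : GQ) :
    (f : GQ → V) ((h : GQ) * x) = V.ρ h ((f : GQ → V) x) := f.2 h x

/-- the map induced on coinductions -/
abbrev indMap {V W : Rep.{0} k H} (φ : V ⟶ W) : Ind H V ⟶ Ind H W := Rep.coindMap H.subtype φ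

theorem indMap_apply {V W : Rep.{0} k H} (φ : V ⟶ W) (f : Ind H V) (x : GQ) :
    (((indMap H φ).hom f : Ind H W) : GQ → W) x = φ.hom ((f : GQ → V) x) := rfl

theorem indMap_injective {V W : Rep.{0} k H} (φ : V ⟶ W) (hφ : Function.Injective φ.hom) :
    Function.Injective (indMap H φ).hom := by
  intro f f' hff
  apply Subtype.ext
  funext x
  apply hφ
  have := congrArg (fun u : Ind H W => (u : GQ → W) x) hff
  exact this

theorem indMap_surjective {V W : Rep.{0} k H} (φ : V ⟶ W) (hφ : Function.Surjective φ.hom) :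
    Function.Surjective (indMap H φ).hom := by
  haveI : Epi φ := (Rep.epi_iff_surjective φ).2 hφ
  have : Epi ((Rep.coindFunctor k H.subtype).map φ) := inferInstance
  exact (Rep.epi_iff_surjective _).1 this

/-- `Ind` is exact. -/
theorem indMap_isSES {V₁ V V₂ : Rep.{0} k H} (i : V₁ ⟶ V) (π : V ⟶ V₂)
    (hi : Function.Injective i.hom) (hπ : Function.Surjective π.hom)
    (hex : ∀ v : V, π.hom v = 0 ↔ ∃ v₁ : V₁, i.hom v₁ = v) :
    IsSES (indMap H i) (indMap H π) := by
  refine ⟨indMap_injective H i hi, indMap_surjective H π hπ, fun f => ⟨fun hf => ?_, ?_⟩⟩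
  · have hf' : ∀ x : GQ, ∃ v₁ : V₁, i.hom v₁ = (f : GQ → V) x := by
      intro x
      rw [← hex]
      have := congrArg (fun u : Ind H V₂ => (u : GQ → V₂) x) hf
      exact this
    choose f₁ hf₁ using hf'
    refine ⟨⟨f₁, ?_⟩, ?_⟩
    · intro h x
      apply hi
      rw [hf₁, Rep.hom_comm_apply, hf₁]
      exact ind_mem H V f h x
    · apply Subtype.ext
      funext x
      exact hf₁ x
  · rintro ⟨f₁, rfl⟩
    apply Subtype.ext
    funext x
    show π.hom (i.hom ((f₁ : GQ → V₁) x)) = 0
    rw [hex]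
    exact ⟨_, rfl⟩

/-- Level of a coinduced module. -/
theorem lev_ind (S : Finset Nat.Primes) (V : Rep.{0} k H)
    (L : IntermediateField ℚ (AlgebraicClosure ℚ)) (hL : L.IsUnramifiedOutside S)
    (hnorm : L.fixingSubgroup.Normal) (hLH : L.fixingSubgroup ≤ H)
    (htriv : ∀ h : H, (h : GQ) ∈ L.fixingSubgroup → V.ρ h = 1) :
    Lev S (Ind H V) := by
  refine ⟨L, hL, fun s hs f => ?_⟩
  apply Subtype.ext
  funext x
  rw [ind_apply]
  have hc : x * s * x⁻¹ ∈ L.fixingSubgroup := hnorm.conj_mem s hs x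
  have h1 := ind_mem H V f ⟨x * s * x⁻¹, hLH hc⟩ x
  rw [htriv _ hc] at h1
  simp only [inv_mul_cancel_right] at h1
  exact h1


section Retract

variable (M : Rep.{0} k GQ)

/-- the unit `M → Ind Res M`, `m ↦ (g ↦ g m)` -/
def unitLin : M →ₗ[k] Ind H (Rep.res H.subtype M) where
  toFun m := ⟨fun g => M.ρ g m, fun h x => by
    show M.ρ ((h : GQ) * x) m = M.ρ (h : GQ) (M.ρ x m)
    rw [map_mul]; rfl⟩
  map_add' a b := by
    apply Subtype.ext; funext g
    exact map_add (M.ρ g) a b
  map_smul' c a := by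
    apply Subtype.ext; funext g
    exact map_smul (M.ρ g) c a

theorem unitLin_apply (m : M) (g : GQ) :
    ((unitLin H M m : Ind H (Rep.res H.subtype M)) : GQ → M) g = M.ρ g m := rfl

def unitHom : M ⟶ Ind H (Rep.res H.subtype M) :=
  Rep.ofHom ⟨unitLin H M, fun g => by
    apply LinearMap.ext
    intro m
    apply Subtype.ext
    funext x
    show M.ρ x (M.ρ g m) = M.ρ (x * g) m
    rw [map_mul]; rfl⟩

/-- the function `g ↦ g f(g⁻¹)` on `G / H` -/
def avgFun (f : Ind H (Rep.res H.subtype M)) : GQ ⧸ H → M :=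
  Quotient.lift (fun g : GQ => M.ρ g ((f : GQ → M) g⁻¹)) (by
    intro a b hab
    have hab' : a⁻¹ * b ∈ H := QuotientGroup.leftRel_apply.mp hab
    show M.ρ a ((f : GQ → M) a⁻¹) = M.ρ b ((f : GQ → M) b⁻¹)
    have h1 := ind_mem H (Rep.res H.subtype M) f ⟨a⁻¹ * b, hab'⟩ b⁻¹
    have h2 : (a⁻¹ * b) * b⁻¹ = a⁻¹ := by group
    rw [show ((⟨a⁻¹ * b, hab'⟩ : H) : GQ) * b⁻¹ = a⁻¹ from h2] at h1
    rw [h1]
    show M.ρ a (M.ρ (a⁻¹ * b) ((f : GQ → M) b⁻¹)) = _
    rw [← Module.End.mul_apply, ← map_mul, mul_inv_cancel_left])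

theorem avgFun_mk (f : Ind H (Rep.res H.subtype M)) (g : GQ) :
    avgFun H M f (QuotientGroup.mk g) = M.ρ g ((f : GQ → M) g⁻¹) := rfl

variable [Fintype (GQ ⧸ H)]

def avgLin : Ind H (Rep.res H.subtype M) →ₗ[k] M where
  toFun f := ((Fintype.card (GQ ⧸ H) : k))⁻¹ • ∑ x : GQ ⧸ H, avgFun H M f x
  map_add' a b := by
    rw [← smul_add, ← Finset.sum_add_distrib]
    congr 1
    apply Finset.sum_congr rfl
    intro x _
    induction x using QuotientGroup.induction_on with
    | H g =>
      rw [avgFun_mk, avgFun_mk, avgFun_mk, ← map_add]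
      rfl
  map_smul' c a := by
    rw [RingHom.id_apply, smul_comm c, Finset.smul_sum (r := c)]
    congr 1
    apply Finset.sum_congr rfl
    intro x _
    induction x using QuotientGroup.induction_on with
    | H g =>
      rw [avgFun_mk, avgFun_mk, ← map_smul]
      rfl

theorem avgFun_ρ (f : Ind H (Rep.res H.subtype M)) (g : GQ) (x : GQ ⧸ H) :
    avgFun H M ((Ind H (Rep.res H.subtype M)).ρ g f) x = M.ρ g (avgFun H M f (g⁻¹ • x)) := by
  induction x using QuotientGroup.induction_on with
  | H y =>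
    show avgFun H M _ (QuotientGroup.mk y) = M.ρ g (avgFun H M f (QuotientGroup.mk (g⁻¹ * y)))
    rw [avgFun_mk, avgFun_mk, ind_apply, ← Module.End.mul_apply, ← map_mul, mul_inv_cancel_left,
      mul_inv_rev, inv_inv]

def avgHom : Ind H (Rep.res H.subtype M) ⟶ M :=
  Rep.ofHom ⟨avgLin H M, fun g => by
    apply LinearMap.ext
    intro f
    show ((Fintype.card (GQ ⧸ H) : k))⁻¹ • ∑ x : GQ ⧸ H,
        avgFun H M ((Ind H (Rep.res H.subtype M)).ρ g f) x =
      M.ρ g (((Fintype.card (GQ ⧸ H) : k))⁻¹ • ∑ x : GQ ⧸ H, avgFun H M f x)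
    rw [map_smul, map_sum]
    congr 1
    exact Fintype.sum_equiv (MulAction.toPerm g⁻¹) _ _ (fun x => avgFun_ρ H M f g x)⟩

theorem isRetract_ind (hn : (Fintype.card (GQ ⧸ H) : k) ≠ 0) :
    IsRetract M (Ind H (Rep.res H.subtype M)) := by
  refine ⟨unitHom H M, avgHom H M, fun m => ?_⟩
  show ((Fintype.card (GQ ⧸ H) : k))⁻¹ • ∑ x : GQ ⧸ H, avgFun H M (unitLin H M m) x = m
  have h1 : ∀ x : GQ ⧸ H, avgFun H M (unitLin H M m) x = m := by
    intro x
    induction x using QuotientGroup.induction_on with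
    | H y =>
      rw [avgFun_mk, unitLin_apply, ← Module.End.mul_apply, ← map_mul, mul_inv_cancel, map_one]
      rfl
  simp only [h1, Finset.sum_const, Finset.card_univ]
  rw [← Nat.cast_smul_eq_nsmul k, smul_smul, inv_mul_cancel₀ hn, one_smul]

end Retract

section Perm

/-- The permutation module on `G/H`. -/
abbrev permH (k : Type) [Field k] (H : Subgroup GQ) : Rep.{0} k GQ :=
  Rep.ofMulAction k GQ (GQ ⧸ H)

theorem permH_coeff (g : GQ) (x : permH k H) (y : GQ ⧸ H) :
    (((permH k H).ρ g x : permH k H) : MonoidAlgebra k (GQ ⧸ H)).coeff y =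
      (x : MonoidAlgebra k (GQ ⧸ H)).coeff (g⁻¹ • y) := by
  show ((Representation.ofMulAction k GQ (GQ ⧸ H)) g x).coeff y = _
  rw [Representation.ofMulAction_def]
  show (Finsupp.mapDomain (g • ·) (x : MonoidAlgebra k (GQ ⧸ H)).coeff) y = _
  have hinj : Function.Injective (fun z : GQ ⧸ H => g • z) := MulAction.injective g
  have := Finsupp.mapDomain_apply hinj (x : MonoidAlgebra k (GQ ⧸ H)).coeff (g⁻¹ • y)
  rw [smul_inv_smul] at this
  exact this

variable (V : Rep.{0} k H) (e : V) (he : ∀ h : H, V.ρ h e = e)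

/-- `x ↦ (g ↦ x[g⁻¹H] • e)` -/
def permToInd (V : Rep.{0} k H) (e : V) (he : ∀ h : H, V.ρ h e = e) : permH k H →ₗ[k] Ind H V where
  toFun x := ⟨fun g => (x : MonoidAlgebra k (GQ ⧸ H)).coeff (QuotientGroup.mk g⁻¹) • e, by
    intro h g
    show (x : MonoidAlgebra k (GQ ⧸ H)).coeff (QuotientGroup.mk ((h : GQ) * g)⁻¹) • e =
      V.ρ h ((x : MonoidAlgebra k (GQ ⧸ H)).coeff (QuotientGroup.mk g⁻¹) • e)
    rw [map_smul, he h, mul_inv_rev]
    congr 2
    rw [QuotientGroup.eq]
    simp⟩
  map_add' a b := by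
    apply Subtype.ext; funext g
    show (a + b : MonoidAlgebra k (GQ ⧸ H)).coeff _ • e = _ • e + _ • e
    rw [MonoidAlgebra.coeff_add, Finsupp.add_apply, add_smul]
  map_smul' c a := by
    apply Subtype.ext; funext g
    show (c • a : MonoidAlgebra k (GQ ⧸ H)).coeff _ • e = c • (_ • e)
    rw [MonoidAlgebra.coeff_smul_apply, smul_eq_mul, mul_smul]

theorem permToInd_apply (x : permH k H) (g : GQ) :
    ((permToInd H V e he x : Ind H V) : GQ → V) g =
      (x : MonoidAlgebra k (GQ ⧸ H)).coeff (QuotientGroup.mk g⁻¹) • e := rfl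

theorem permToInd_equivariant (g : GQ) (x : permH k H) :
    permToInd H V e he ((permH k H).ρ g x) = (Ind H V).ρ g (permToInd H V e he x) := by
  apply Subtype.ext
  funext y
  rw [ind_apply, permToInd_apply, permToInd_apply, permH_coeff, mul_inv_rev]
  rfl

theorem permToInd_injective (he0 : e ≠ 0) : Function.Injective (permToInd H V e he) := by
  rw [← LinearMap.ker_eq_bot, LinearMap.ker_eq_bot']
  intro x hx
  rw [← MonoidAlgebra.coeff_eq_zero]
  ext y
  induction y using QuotientGroup.induction_on with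
  | H g =>
    have h1 := congrArg (fun u : Ind H V => (u : GQ → V) g⁻¹) hx
    have h2 : (x : MonoidAlgebra k (GQ ⧸ H)).coeff (QuotientGroup.mk g⁻¹⁻¹) • e = 0 := h1
    rw [inv_inv] at h2
    rcases smul_eq_zero.mp h2 with h3 | h3
    · exact h3
    · exact absurd h3 he0

theorem permToInd_surjective [Finite (GQ ⧸ H)] (hspan : ∀ w : V, ∃ c : k, c • e = w) :
    Function.Surjective (permToInd H V e he) := by
  intro f
  choose c hc using hspan
  have hinv : ∀ (g : GQ) (h : H), (f : GQ → V) ((h : GQ) * g) = (f : GQ → V) g := by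
    intro g h
    rw [ind_mem, ← hc ((f : GQ → V) g), map_smul, he]
  let φ : GQ ⧸ H → k := fun y => c ((f : GQ → V) (y.out)⁻¹)
  refine ⟨MonoidAlgebra.ofCoeff (Finsupp.equivFunOnFinite.symm φ), ?_⟩
  apply Subtype.ext
  funext g
  rw [permToInd_apply]
  show φ (QuotientGroup.mk g⁻¹) • e = _
  show c ((f : GQ → V) ((QuotientGroup.mk g⁻¹ : GQ ⧸ H).out)⁻¹) • e = _
  rw [hc]
  obtain ⟨h, hh⟩ := QuotientGroup.mk_out_eq_mul H g⁻¹
  rw [hh, mul_inv_rev, inv_inv]
  exact hinv g h⁻¹


theorem ind_iso_perm [Finite (GQ ⧸ H)] (V : Rep.{0} k H) (e : V) (he : ∀ h : H, V.ρ h e = e)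
    (he0 : e ≠ 0) (hspan : ∀ w : V, ∃ c : k, c • e = w) :
    Nonempty (Ind H V ≅ permH k H) := by
  have hbij : Function.Bijective (permToInd H V e he) :=
    ⟨permToInd_injective H V e he he0, permToInd_surjective H V e he hspan⟩
  refine ⟨(Rep.mkIso (Representation.Equiv.mk
    (LinearEquiv.ofBijective (permToInd H V e he) hbij) (fun g => ?_))).symm⟩
  apply LinearMap.ext
  intro x
  exact permToInd_equivariant H V e he g x

end Perm

section Dev

variable (K L : IntermediateField ℚ (AlgebraicClosure ℚ))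

/-- the condition on `V`: the fixing subgroup of `L` acts trivially -/
def TrivOn (V : Rep.{0} k K.fixingSubgroup) : Prop :=
  ∀ h : K.fixingSubgroup, (h : GQ) ∈ L.fixingSubgroup → V.ρ h = 1

theorem trivOn_sub (V : Rep.{0} k K.fixingSubgroup) (hV : TrivOn K L V) (W : Submodule k V)
    (hW : ∀ g, W ≤ W.comap (V.ρ g)) : TrivOn K L (Rep.subrepresentation V W hW) := by
  intro h hh
  apply LinearMap.ext
  intro w
  apply Subtype.ext
  show V.ρ h w.1 = w.1
  rw [hV h hh]
  rfl

theorem trivOn_quot (V : Rep.{0} k K.fixingSubgroup) (hV : TrivOn K L V) (W : Submodule k V)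
    (hW : ∀ g, W ≤ W.comap (V.ρ g)) : TrivOn K L (Rep.quotient V W hW) := by
  intro h hh
  apply LinearMap.ext
  intro w
  induction w using Submodule.Quotient.induction_on with
  | H x =>
    show Submodule.Quotient.mk (V.ρ h x) = Submodule.Quotient.mk x
    rw [hV h hh]
    rfl

theorem subquot_ses (V : Rep.{0} k K.fixingSubgroup) (W : Submodule k V)
    (hW : ∀ g, W ≤ W.comap (V.ρ g)) :
    IsSES (indMap K.fixingSubgroup (Rep.subtype V W hW))
      (indMap K.fixingSubgroup (Rep.mkQ V W hW)) := by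
  apply indMap_isSES
  · exact Subtype.val_injective
  · exact Submodule.Quotient.mk_surjective W
  · intro v
    show Submodule.Quotient.mk v = 0 ↔ _
    rw [Submodule.Quotient.mk_eq_zero]
    constructor
    · intro hv
      exact ⟨⟨v, hv⟩, rfl⟩
    · rintro ⟨v₁, rfl⟩
      exact v₁.2

theorem dev_ind (p : ℕ) [Fact p.Prime] [CharP k p] (S : Finset Nat.Primes)
    (K L : IntermediateField ℚ (AlgebraicClosure ℚ))
    [Finite (GQ ⧸ K.fixingSubgroup)]
    (hL : L.IsUnramifiedOutside S) (hnorm : L.fixingSubgroup.Normal)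
    (hLK : L.fixingSubgroup ≤ K.fixingSubgroup)
    [(L.fixingSubgroup.subgroupOf K.fixingSubgroup).FiniteIndex]
    (hp : ∀ h : K.fixingSubgroup, ∃ n : ℕ,
      h ^ (p ^ n) ∈ L.fixingSubgroup.subgroupOf K.fixingSubgroup)
    (n : ℕ) : ∀ (V : Rep.{0} k K.fixingSubgroup) [FiniteDimensional k V],
    finrank k V = n → TrivOn K L V →
    DevL k S K (Ind K.fixingSubgroup V) ∧ DevR k S K (Ind K.fixingSubgroup V) := by
  induction n with
  | zero =>
    intro V _ hV0 _
    haveI : Subsingleton V := Module.finrank_zero_iff.mp hV0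
    have hsub : Subsingleton (Ind K.fixingSubgroup V) :=
      ⟨fun a b => Subtype.ext (funext fun g => Subsingleton.elim _ _)⟩
    exact ⟨DevL.zero _ hsub, DevR.zero _ hsub⟩
  | succ n ih =>
    intro V _ hVn hV
    haveI : Nontrivial V := Module.nontrivial_of_finrank_pos (R := k) (by rw [hVn]; omega)
    have hUtriv : ∀ u ∈ L.fixingSubgroup.subgroupOf K.fixingSubgroup, V.ρ u = 1 :=
      fun u hu => hV u hu
    have hlev : ∀ V' : Rep.{0} k K.fixingSubgroup, TrivOn K L V' →
        Lev S (Ind K.fixingSubgroup V') :=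
      fun V' hV' => lev_ind K.fixingSubgroup S V' L hL hnorm hLK hV'
    constructor
    · -- DevL
      obtain ⟨v, hv0, hv⟩ := exists_fixed_vector (p := p) V.ρ
        (L.fixingSubgroup.subgroupOf K.fixingSubgroup) hUtriv hp
      obtain ⟨W, hWdef⟩ : ∃ W : Submodule k V, W = Submodule.span k {v} := ⟨_, rfl⟩
      have hvW : v ∈ W := by rw [hWdef]; exact Submodule.mem_span_singleton_self v
      have hW : ∀ g, W ≤ W.comap (V.ρ g) := by
        intro g w hw
        rw [hWdef] at hw ⊢
        obtain ⟨c, rfl⟩ := Submodule.mem_span_singleton.mp hw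
        rw [Submodule.mem_comap, map_smul, hv g]
        exact Submodule.smul_mem _ c (Submodule.mem_span_singleton_self v)
      have hfrW : finrank k W = 1 := by rw [hWdef]; exact finrank_span_singleton hv0
      have hfrQ : finrank k (V ⧸ W) = n := by
        have := Submodule.finrank_quotient_add_finrank W
        rw [hVn, hfrW] at this
        omega
      haveI : FiniteDimensional k (Rep.quotient V W hW) :=
        inferInstanceAs (FiniteDimensional k (V ⧸ W))
      have ihQ := (ih (Rep.quotient V W hW) hfrQ (trivOn_quot K L V hV W hW)).1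
      have hiso : Nonempty (Ind K.fixingSubgroup (Rep.subrepresentation V W hW) ≅ permRep k K) := by
        refine ind_iso_perm K.fixingSubgroup (Rep.subrepresentation V W hW) ⟨v, hvW⟩ ?_ ?_ ?_
        · intro h
          apply Subtype.ext
          exact hv h
        · intro h
          exact hv0 (congrArg Subtype.val h)
        · rintro ⟨w, hw⟩
          rw [hWdef] at hw
          obtain ⟨c, rfl⟩ := Submodule.mem_span_singleton.mp hw
          exact ⟨c, rfl⟩
      exact DevL.ext _ _ _ _ _ (subquot_ses K V W hW) hiso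
        (hlev _ (trivOn_sub K L V hV W hW)) (hlev _ hV) (hlev _ (trivOn_quot K L V hV W hW)) ihQ
    · -- DevR
      obtain ⟨l, hl0, hl⟩ := exists_fixed_functional (p := p) V.ρ
        (L.fixingSubgroup.subgroupOf K.fixingSubgroup) hUtriv hp
      obtain ⟨W, hWdef⟩ : ∃ W : Submodule k V, W = LinearMap.ker l := ⟨_, rfl⟩
      have hW : ∀ g, W ≤ W.comap (V.ρ g) := by
        intro g w hw
        rw [hWdef] at hw ⊢
        rw [Submodule.mem_comap, LinearMap.mem_ker, hl g w]
        exact hw
      obtain ⟨x, hx⟩ : ∃ x, l x ≠ 0 := by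
        by_contra hcon
        push Not at hcon
        exact hl0 (LinearMap.ext hcon)
      have hsurj : Function.Surjective l := by
        intro c
        exact ⟨(c * (l x)⁻¹) • x, by rw [map_smul, smul_eq_mul, mul_assoc, inv_mul_cancel₀ hx,
          mul_one]⟩
      have hfrW : finrank k W = n := by
        have h1 := LinearMap.finrank_range_add_finrank_ker l
        rw [LinearMap.range_eq_top.mpr hsurj, finrank_top, Module.finrank_self, hVn,
          ← hWdef] at h1
        omega
      haveI : FiniteDimensional k (Rep.subrepresentation V W hW) :=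
        inferInstanceAs (FiniteDimensional k W)
      have ihW := (ih (Rep.subrepresentation V W hW) hfrW (trivOn_sub K L V hV W hW)).2
      obtain ⟨v₁, hv₁⟩ := hsurj 1
      have hiso : Nonempty (Ind K.fixingSubgroup (Rep.quotient V W hW) ≅ permRep k K) := by
        refine ind_iso_perm K.fixingSubgroup (Rep.quotient V W hW)
          (Submodule.Quotient.mk v₁) ?_ ?_ ?_
        · intro h
          show Submodule.Quotient.mk (V.ρ h v₁) = Submodule.Quotient.mk v₁
          rw [Submodule.Quotient.eq, hWdef, LinearMap.mem_ker, map_sub, hl h v₁, sub_self]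
        · intro h
          rw [Submodule.Quotient.mk_eq_zero, hWdef, LinearMap.mem_ker, hv₁] at h
          exact one_ne_zero h
        · intro w
          induction w using Submodule.Quotient.induction_on with
          | H y =>
            refine ⟨l y, ?_⟩
            rw [← Submodule.Quotient.mk_smul, Submodule.Quotient.eq, hWdef, LinearMap.mem_ker,
              map_sub, map_smul, hv₁, smul_eq_mul, mul_one, sub_self]
      exact DevR.ext _ _ _ _ _ (subquot_ses K V W hW) hiso
        (hlev _ (trivOn_sub K L V hV W hW)) (hlev _ hV) (hlev _ (trivOn_quot K L V hV W hW)) ihW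

end Dev

end Fermat.Agent.S55.H13
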