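/-
S55 (Poitou–Tate), package E5: the pairing on the prelude's `sha₁`, `sha₂` from the two
surjectivity properties `α²epi`, `β¹epi`.
Owner: helper48.
-/
import Fermat.Agent.S55.H48_E5Lin
import Fermat.Agent.S55.H48_E5Adj
import Fermat.Agent.S55.H48_E5Bridge
import Fermat.Agent.S55.H48_NC
import Fermat.Agent.S55.H48_Lev

set_option autoImplicit false

open CategoryTheory Module groupCohomology ExtCitation

noncomputable section

namespace Fermat.Agent.S55.H48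

open Fermat.Agent.S55

variable {k : Type} [Field k] {S : Finset Nat.Primes} {χ : GQ →* kˣ}

section choices

variable (M : Rep.{0} k GQ)

/-- A choice of local primitives of a locally trivial 1-cocycle. -/
def locM (A : Rep.{0} k GQ) (c : ↥(shaZ1 S A)) : ↥S → A :=
  fun q => Classical.choose ((isSha1_of_mem S A c).2 q)

lemma locM_spec (A : Rep.{0} k GQ) (c : ↥(shaZ1 S A)) (q : ↥S) :
    resOne q.1 ((c.1 : cocycles₁ A) : GQ → A) = dZeroL A q.1 (locM A c q) :=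
  Classical.choose_spec ((isSha1_of_mem S A c).2 q)

/-- The cone 1-cocycle of a locally trivial 1-cocycle. -/
def coneY (A : Rep.{0} k GQ) (c : ↥(shaZ1 S A)) : C1c S A :=
  (((c.1 : cocycles₁ A) : GQ → A), locM A c)

lemma isZ1c_coneY (A : Rep.{0} k GQ) (c : ↥(shaZ1 S A)) : IsZ1c S A (coneY A c) :=
  ⟨(isSha1_of_mem S A c).1, locM_spec A c⟩

/-- A choice of local primitives of a locally trivial 2-cocycle. -/
def locG (a : ↥(shaZ2 S M)) : ∀ q : ↥S, Gl q.1 → M :=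
  fun q => Classical.choose ((isSha2_of_mem S M a).2 q)

lemma locG_spec (a : ↥(shaZ2 S M)) (q : ↥S) :
    IsLevelConstant₁ (rl q.1) (locG M a q) ∧
      resTwo q.1 (a.1.1 : GQ × GQ → M) = dOneL M q.1 (locG M a q) :=
  Classical.choose_spec ((isSha2_of_mem S M a).2 q)

/-- The cone 2-cocycle of a locally trivial 2-cocycle. -/
def coneX (a : ↥(shaZ2 S M)) : C2c S M :=
  ((a.1.1 : GQ × GQ → M), locG M a)

lemma isZ2c_coneX (a : ↥(shaZ2 S M)) : IsZ2c S M (coneX M a) :=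
  ⟨(isSha2_of_mem S M a).1, locG_spec M a⟩

end choices

section pairing

variable (M : Rep.{0} k GQ) (hχ : LevChar S χ) (hM : Lev S M) (tr : Trace S χ)

/-- The value of the pairing on cocycles. -/
def pairVal (tr : Trace S χ) (c : ↥(shaZ1 S (Md χ M))) (a : ↥(shaZ2 S M)) : k :=
  tr.toFun (cupB1 S χ M (a.1.1 : GQ × GQ → M) (coneY (Md χ M) c))

include hχ hM in
/-- The value of the pairing, computed with any cone 2-cocycle above `a`. -/
lemma pairVal_eq_cupA2 (c : ↥(shaZ1 S (Md χ M))) (a : ↥(shaZ2 S M)) {x : C2c S M}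
    (hx : IsZ2c S M x) (hxa : x.1 = (a.1.1 : GQ × GQ → M)) :
    pairVal M tr c a =
      tr.toFun (cupA2 S χ M x ((c.1 : cocycles₁ (Md χ M)) : GQ → Md χ M)) := by
  have h := tr_cupA2_eq_cupB1 hχ hM tr hx (isZ1c_coneY (Md χ M) c)
  rw [hxa] at h
  exact h.symm

include hχ hM in
/-- The value of the pairing, computed with any cone 1-cocycle above `c`. -/
lemma pairVal_eq_cupB1 (c : ↥(shaZ1 S (Md χ M))) (a : ↥(shaZ2 S M)) {y : C1c S (Md χ M)}
    (hy : IsZ1c S (Md χ M) y) (hyc : y.1 = ((c.1 : cocycles₁ (Md χ M)) : GQ → Md χ M)) :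
    pairVal M tr c a = tr.toFun (cupB1 S χ M (a.1.1 : GQ × GQ → M) y) := by
  rw [pairVal_eq_cupA2 M hχ hM tr c a (isZ2c_coneX M a) rfl]
  have h := tr_cupA2_eq_cupB1 hχ hM tr (isZ2c_coneX M a) hy
  rw [hyc] at h
  exact h

/-- The pairing on cocycles. -/
def pairZ : ↥(shaZ1 S (Md χ M)) →ₗ[k] ↥(shaZ2 S M) →ₗ[k] k :=
  LinearMap.mk₂ k (pairVal M tr)
    (fun c c' a => by
      rw [pairVal_eq_cupA2 M hχ hM tr c a (isZ2c_coneX M a) rfl,
        pairVal_eq_cupA2 M hχ hM tr c' a (isZ2c_coneX M a) rfl,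
        pairVal_eq_cupA2 M hχ hM tr (c + c') a (isZ2c_coneX M a) rfl, ← map_add]
      exact congrArg _ ((cupA2ₗ S χ M (coneX M a)).map_add _ _))
    (fun r c a => by
      rw [pairVal_eq_cupA2 M hχ hM tr c a (isZ2c_coneX M a) rfl,
        pairVal_eq_cupA2 M hχ hM tr (r • c) a (isZ2c_coneX M a) rfl, ← map_smul]
      exact congrArg _ ((cupA2ₗ S χ M (coneX M a)).map_smul _ _))
    (fun c a a' => by
      show tr.toFun _ = tr.toFun _ + tr.toFun _
      rw [← map_add]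
      exact congrArg _ ((cupB1ₗ S χ M (coneY (Md χ M) c)).map_add _ _))
    (fun r c a => by
      show tr.toFun _ = r • tr.toFun _
      rw [← map_smul]
      exact congrArg _ ((cupB1ₗ S χ M (coneY (Md χ M) c)).map_smul _ _))

lemma pairZ_apply (c : ↥(shaZ1 S (Md χ M))) (a : ↥(shaZ2 S M)) :
    pairZ M hχ hM tr c a = pairVal M tr c a := rfl

end pairing

/-- `2` is invertible in `𝔽_p` for odd `p`. -/
lemma two_ne_zero_zmod (p : ℕ) [Fact p.Prime] (hp2 : p ≠ 2) : (2 : ZMod p) ≠ 0 := by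
  intro h
  have h' : ((2 : ℕ) : ZMod p) = 0 := by exact_mod_cast h
  rw [ZMod.natCast_eq_zero_iff] at h'
  exact hp2 ((Nat.prime_dvd_prime_iff_eq Fact.out Nat.prime_two).1 h')

/-- **E5** over any field in which `2` is invertible, for any character and module of
level `S`. -/
theorem e5_general (h2 : (2 : k) ≠ 0) (hNC : NC S) (hχ : LevChar S χ) (M : Rep.{0} k GQ)
    (hM : Lev S M) (tr : Trace S χ) (hα : AlphaTwoEpi tr M) (hβ : BetaOneEpi tr M) :
    ∃ B : sha₁ S (M.dualTwist χ) →ₗ[k] sha₂ S M →ₗ[k] k,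
      (∀ y, (∀ x, B y x = 0) → y = 0) ∧ (∀ x, (∀ y, B y x = 0) → x = 0) := by
  have hP₁ : ∀ c : ↥(shaZ1 S (Md χ M)), shaπ1 S (Md χ M) c = 0 →
      ∀ a : ↥(shaZ2 S M), pairZ M hχ hM tr c a = 0 := by
    intro c hc a
    obtain ⟨m, hm⟩ := (shaπ1_eq_zero_iff S _ c).1 hc
    rw [pairZ_apply, pairVal_eq_cupA2 M hχ hM tr c a (isZ2c_coneX M a) rfl, hm]
    exact tr_cupA2_dZero hNC hχ hM tr (isZ2c_coneX M a) m
  have hP₂ : ∀ a : ↥(shaZ2 S M), shaπ2 S M a = 0 →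
      ∀ c : ↥(shaZ1 S (Md χ M)), pairZ M hχ hM tr c a = 0 := by
    intro a ha c
    obtain ⟨f, hf, hfa⟩ := (shaπ2_eq_zero_iff S M a).1 ha
    rw [pairZ_apply]
    show tr.toFun (cupB1 S _ M (a.1.1 : GQ × GQ → M) _) = 0
    rw [← hfa]
    exact tr_cupB1_dOne hNC hχ hM tr (isZ1c_coneY _ c) hf
  letI iA : AddCommGroup ↑(Md χ M) := (Md χ M).hV1
  obtain ⟨B, hB⟩ := exists_bilin_descent (K := k)
    (Z₁ := ↥(shaZ1 S (Md χ M))) (Z₂ := ↥(shaZ2 S M))
    (X₁ := ↥(sha₁ S (Md χ M))) (X₂ := ↥(sha₂ S M))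
    (shaπ1 S (Md χ M)) (shaπ2 S M)
    (shaπ1_surjective S _) (shaπ2_surjective S M) (pairZ M hχ hM tr) hP₁ hP₂
  refine ⟨B, ?_, ?_⟩
  · intro y hy
    obtain ⟨c, rfl⟩ := shaπ1_surjective S _ y
    by_contra hne
    have hnot : ((c.1 : cocycles₁ (Md χ M)) : GQ → Md χ M) ∉
        LinearMap.range (d₀₁ (Md χ M)).hom := by
      rintro ⟨m, hm⟩
      exact hne ((shaπ1_eq_zero_iff S _ c).2 ⟨m, hm.symm⟩)
    obtain ⟨φ, hφ0, hφc⟩ := exists_functional_sep _ hnot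
    obtain ⟨x, hx, hxφ⟩ := hα φ (fun m' => hφ0 _ ⟨m', rfl⟩)
    have hsha : IsSha2 S M x.1 := ⟨hx.1, fun q => ⟨x.2 q, (hx.2 q).1, (hx.2 q).2⟩⟩
    obtain ⟨a, ha⟩ := exists_mem_of_isSha2 S M h2 hsha
    have h1 := hy (shaπ2 S M a)
    rw [hB c a, pairZ_apply, pairVal_eq_cupA2 M hχ hM tr c a hx ha.symm,
      hxφ _ (isSha1_of_mem S _ c).1] at h1
    exact hφc h1
  · intro x hx
    obtain ⟨a, rfl⟩ := shaπ2_surjective S M x
    by_contra hne
    have hnot : (a.1.1 : GQ × GQ → M) ∉ levelCoboundariesS₂ S M := by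
      intro hmem
      obtain ⟨f, hf, hfa⟩ := (mem_levelCoboundariesS₂_iff S M _).1 hmem
      exact hne ((shaπ2_eq_zero_iff S M a).2 ⟨f, hf, hfa⟩)
    obtain ⟨φ, hφ0, hφa⟩ := exists_functional_sep _ hnot
    obtain ⟨y, hy, hyφ⟩ := hβ φ (fun a' ha' => by
      obtain ⟨f, hf, hfa⟩ := ha'
      exact hφ0 _ ((mem_levelCoboundariesS₂_iff S M _).2 ⟨f, hf, hfa⟩))
    have hsha : IsSha1 S (Md χ M) y.1 := ⟨hy.1, fun q => ⟨y.2 q, hy.2 q⟩⟩
    obtain ⟨c, hc⟩ := exists_mem_of_isSha1 S _ h2 hsha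
    have h1 := hx (shaπ1 S _ c)
    rw [hB c a, pairZ_apply, pairVal_eq_cupB1 M hχ hM tr c a hy hc.symm,
      hyφ _ (isSha2_of_mem S M a).1] at h1
    exact hφa h1

/-- **E5**. -/
theorem stmt_E5 : Stmt_E5 := by
  intro p _ S M hyp tr hα hβ
  have hM : Lev S M := stmt_lev p S M hyp
  have hχ : LevChar S (cycloChar p) := stmt_levChar p S hyp.hpS
  have hNC : NC S := fun F hF => exists_normal_level S F hF
  have h2 : (2 : ZMod p) ≠ 0 := two_ne_zero_zmod p hyp.hp2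
  exact e5_general h2 hNC hχ M hM tr hα hβ

end Fermat.Agent.S55.H48

end
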