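/-
S55 (Poitou–Tate): assembly of the finished packages.  What remains is exactly
`Stmt_E4` (the base case: class field theory of exponent `p`) and `Stmt_E5`
(the pairing on the prelude's `sha₁`, `sha₂` from the two surjectivity properties).
Owner: helper49.
-/
import Fermat.Agent.S55.Coh.Wiring
import Fermat.Agent.S55.H49_E1
import Fermat.Agent.S55.H48_E2
import Fermat.Agent.S55.H13_E3

set_option autoImplicit false

open CategoryTheory Module groupCohomology ExtCitation

namespace Fermat.Agent.S55.H49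

open Fermat.Agent.S55

/-- The frozen statement S55 from the two remaining packages. -/
theorem result_of_E4_E5 (h4 : Stmt_E4) (h5 : Stmt_E5)
    {p : ℕ} [Fact p.Prime] (hp2 : p ≠ 2) (S : Finset Nat.Primes) (hpS : pPrime p ∈ S)
    (M : Rep.{0} (ZMod p) (AlgebraicClosure ℚ ≃ₐ[ℚ] AlgebraicClosure ℚ))
    [FiniteDimensional (ZMod p) M]
    (hsm : ∀ m : M, ∃ F : IntermediateField ℚ (AlgebraicClosure ℚ), FiniteDimensional ℚ F ∧
      ∀ s ∈ F.fixingSubgroup, M.ρ s m = m)
    (hMur : ∀ q : Nat.Primes, q ∉ S → ∀ A : ValuationSubring (AlgebraicClosure ℚ),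
      A.LiesOverPrime (q : ℕ) → ∀ g ∈ A.inertiaSubgroupIn ℚ, M.ρ g = 1) :
    ∃ B : sha₁ S (M.dualTwist (cycloChar p)) →ₗ[ZMod p] sha₂ S M →ₗ[ZMod p] ZMod p,
      (∀ y, (∀ x, B y x = 0) → y = 0) ∧ (∀ x, (∀ y, B y x = 0) → x = 0) :=
  result_of_E stmt_E1A stmt_E1B H48.stmt_E2 H13.stmt_E3 h4 h5 H48.stmt_lev H48.stmt_levChar
    hp2 S hpS M hsm hMur

end Fermat.Agent.S55.H49
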