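/-
S55 (Poitou–Tate): assembly of the finished packages, index form.  What remains is exactly
`Top.Stmt_E4P` (the base case over base fields of degree prime to `p`).
Owner: helper49.
-/
import Fermat.Agent.S55.Coh.Wiring
import Fermat.Agent.S55.H49_E1
import Fermat.Agent.S55.H48_E2
import Fermat.Agent.S55.H13_E3Idx
import Fermat.Agent.S55.H48_E5
import Fermat.Agent.S55.Top.DefsP

set_option autoImplicit false

open CategoryTheory Module groupCohomology ExtCitation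

namespace Fermat.Agent.S55.H49

open Fermat.Agent.S55

set_option maxHeartbeats 2000000 in
/-- The frozen statement S55 from `Top.Stmt_E4P`. -/
theorem result_of_E4P (h4 : Top.Stmt_E4P)
    {p : ℕ} [Fact p.Prime] (hp2 : p ≠ 2) (S : Finset Nat.Primes) (hpS : pPrime p ∈ S)
    (M : Rep.{0} (ZMod p) (AlgebraicClosure ℚ ≃ₐ[ℚ] AlgebraicClosure ℚ))
    [FiniteDimensional (ZMod p) M]
    (hsm : ∀ m : M, ∃ F : IntermediateField ℚ (AlgebraicClosure ℚ), FiniteDimensional ℚ F ∧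
      ∀ s ∈ F.fixingSubgroup, M.ρ s m = m)
    (hMur : ∀ q : Nat.Primes, q ∉ S → ∀ A : ValuationSubring (AlgebraicClosure ℚ),
      A.LiesOverPrime (q : ℕ) → ∀ g ∈ A.inertiaSubgroupIn ℚ, M.ρ g = 1) :
    ∃ B : sha₁ S (M.dualTwist (cycloChar p)) →ₗ[ZMod p] sha₂ S M →ₗ[ZMod p] ZMod p,
      (∀ y, (∀ x, B y x = 0) → y = 0) ∧ (∀ x, (∀ y, B y x = 0) → x = 0) := by
  have hyp : Hyp p S M := ⟨hp2, hpS, inferInstance, hsm, hMur⟩
  have hlev : Lev S M := H48.stmt_lev p S M hyp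
  have hχ : LevChar S (cycloChar p) := H48.stmt_levChar p S hpS
  obtain ⟨K, hK, hidx, N, hret, hL, hR⟩ := H13.stmt_E3_index p (ZMod p) S M hpS hlev
  obtain ⟨tr, hA2, hA3, hB1, hB2⟩ := h4 p hp2 S hpS K hK hidx
  have hαN : AlphaTwoEpi tr N :=
    alphaTwoEpi_of_devL stmt_E1A H48.stmt_E2 tr hχ K ⟨hA2, hA3⟩ N hL
  have hβN : BetaOneEpi tr N :=
    betaOneEpi_of_devR stmt_E1B H48.stmt_E2 tr hχ K ⟨hB1, hB2⟩ N hR
  have hr := H48.stmt_E2 (ZMod p) S (cycloChar p) tr M N hret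
  exact H48.stmt_E5 p S M hyp tr (hr.1 hαN) (hr.2.2.1 hβN)

end Fermat.Agent.S55.H49
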