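/-
S55 (Poitou–Tate): the frozen statement from the two top inputs of E4,
`Top.Stmt_TopQ0` (`H³_c(ℚ, μ_p) ≠ 0`) and `Top.Stmt_TopK` (Poitou–Tate for the trivial module
over the base fields).  Everything else (E1, E2, E3, E5, bridges, Shapiro) is proved.
Owner: helper49.
-/
import Fermat.Agent.S55.H49_AssemblyP
import Fermat.Agent.S55.Top.SH

set_option autoImplicit false

open CategoryTheory Module groupCohomology ExtCitation

namespace Fermat.Agent.S55.H49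

open Fermat.Agent.S55

/-- The frozen statement S55 from `Top.Stmt_TopQ0` and `Top.Stmt_TopK`. -/
theorem result_of_top (hQ : Top.Stmt_TopQ0) (hT : Top.Stmt_TopK)
    {p : ℕ} [Fact p.Prime] (hp2 : p ≠ 2) (S : Finset Nat.Primes) (hpS : pPrime p ∈ S)
    (M : Rep.{0} (ZMod p) (AlgebraicClosure ℚ ≃ₐ[ℚ] AlgebraicClosure ℚ))
    [FiniteDimensional (ZMod p) M]
    (hsm : ∀ m : M, ∃ F : IntermediateField ℚ (AlgebraicClosure ℚ), FiniteDimensional ℚ F ∧
      ∀ s ∈ F.fixingSubgroup, M.ρ s m = m)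
    (hMur : ∀ q : Nat.Primes, q ∉ S → ∀ A : ValuationSubring (AlgebraicClosure ℚ),
      A.LiesOverPrime (q : ℕ) → ∀ g ∈ A.inertiaSubgroupIn ℚ, M.ρ g = 1) :
    ∃ B : sha₁ S (M.dualTwist (cycloChar p)) →ₗ[ZMod p] sha₂ S M →ₗ[ZMod p] ZMod p,
      (∀ y, (∀ x, B y x = 0) → y = 0) ∧ (∀ x, (∀ y, B y x = 0) → x = 0) :=
  result_of_E4P (Top.stmt_E4P_of_top hQ hT) hp2 S hpS M hsm hMur

end Fermat.Agent.S55.H49
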