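/-
S55 (Poitou–Tate): the frozen statement from the FIVE remaining inputs of E4:
`Top.Stmt_TopQ0` (`H³_c(ℚ, μ_p) ≠ 0`) and `Top.Stmt_I1 … Top.Stmt_I4` (local duality, `H³_S = 0`,
Euler characteristic, the cokernel of `H²_S → ⊕ H²(K_w)`).  Everything else (E1, E2, E3, E5,
bridges, Shapiro, PT-LIN, G1K) is proved.
Owner: helper49.
-/
import Fermat.Agent.S55.H49_AssemblyTop
import Fermat.Agent.S55.Top.H48_PTLin
import Fermat.Agent.S55.Top.G1K_Main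

set_option autoImplicit false

open CategoryTheory Module groupCohomology ExtCitation

namespace Fermat.Agent.S55.H49

open Fermat.Agent.S55

/-- `Stmt_TopK` from `I1 … I4`. -/
theorem stmt_TopK_of_I (h1 : Top.Stmt_I1) (h2 : Top.Stmt_I2) (h3 : Top.Stmt_I3)
    (h4 : Top.Stmt_I4) : Top.Stmt_TopK :=
  Top.H48.stmt_TopK_of h1 h2 h3 h4 (Top.stmt_G1K_of h2 h4)

/-- `Stmt_E4P` from `TopQ0` and `I1 … I4`. -/
theorem stmt_E4P_of_I (hQ : Top.Stmt_TopQ0) (h1 : Top.Stmt_I1) (h2 : Top.Stmt_I2)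
    (h3 : Top.Stmt_I3) (h4 : Top.Stmt_I4) : Top.Stmt_E4P :=
  Top.stmt_E4P_of_top hQ (stmt_TopK_of_I h1 h2 h3 h4)

/-- The frozen statement S55 from `Top.Stmt_TopQ0` and `Top.Stmt_I1 … Top.Stmt_I4`. -/
theorem result_of_I (hQ : Top.Stmt_TopQ0) (h1 : Top.Stmt_I1) (h2 : Top.Stmt_I2)
    (h3 : Top.Stmt_I3) (h4 : Top.Stmt_I4)
    {p : ℕ} [Fact p.Prime] (hp2 : p ≠ 2) (S : Finset Nat.Primes) (hpS : pPrime p ∈ S)
    (M : Rep.{0} (ZMod p) (AlgebraicClosure ℚ ≃ₐ[ℚ] AlgebraicClosure ℚ))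
    [FiniteDimensional (ZMod p) M]
    (hsm : ∀ m : M, ∃ F : IntermediateField ℚ (AlgebraicClosure ℚ), FiniteDimensional ℚ F ∧
      ∀ s ∈ F.fixingSubgroup, M.ρ s m = m)
    (hMur : ∀ q : Nat.Primes, q ∉ S → ∀ A : ValuationSubring (AlgebraicClosure ℚ),
      A.LiesOverPrime (q : ℕ) → ∀ g ∈ A.inertiaSubgroupIn ℚ, M.ρ g = 1) :
    ∃ B : sha₁ S (M.dualTwist (cycloChar p)) →ₗ[ZMod p] sha₂ S M →ₗ[ZMod p] ZMod p,
      (∀ y, (∀ x, B y x = 0) → y = 0) ∧ (∀ x, (∀ y, B y x = 0) → x = 0) :=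
  result_of_top hQ (stmt_TopK_of_I h1 h2 h3 h4) hp2 S hpS M hsm hMur

end Fermat.Agent.S55.H49
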