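/-
S55 wiring, level 0 (helper49): the frozen statement from
* `Stmt_sha1_finite` + `Stmt_sha2_finite` + `Stmt_sha_finrank_eq`, or from
* `Stmt_sha1_finite` + `Stmt_sha2_inj_dual` + `Stmt_sha1_inj_dual`.
-/
import Fermat.Agent.S55.Defs

set_option autoImplicit false

open CategoryTheory Module groupCohomology ExtCitation

namespace Fermat.Agent.S55

/-- Two finite-dimensional vector spaces of the same dimension carry a pairing which is
nondegenerate on both sides. -/
theorem exists_pairing_of_finrank_eq {k V W : Type*} [Field k] [AddCommGroup V] [Module k V]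
    [AddCommGroup W] [Module k W] [Module.Finite k V] [Module.Finite k W]
    (h : Module.finrank k V = Module.finrank k W) :
    ∃ B : V →ₗ[k] W →ₗ[k] k,
      (∀ y, (∀ x, B y x = 0) → y = 0) ∧ (∀ x, (∀ y, B y x = 0) → x = 0) := by
  have h' : Module.finrank k V = Module.finrank k (Module.Dual k W) := by
    rw [h, Subspace.dual_finrank_eq]
  obtain ⟨e⟩ := FiniteDimensional.nonempty_linearEquiv_of_finrank_eq h'
  refine ⟨e.toLinearMap, ?_, ?_⟩
  · intro y hy
    have : e y = 0 := LinearMap.ext hy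
    exact e.map_eq_zero_iff.mp this
  · intro x hx
    rw [← Module.forall_dual_apply_eq_zero_iff k x]
    intro φ
    have := hx (e.symm φ)
    simpa using this

/-- Level-0 wiring of S55 from finiteness and equality of dimensions. -/
theorem result_of_finrank_eq (h1 : Stmt_sha1_finite) (h2 : Stmt_sha2_finite)
    (heq : Stmt_sha_finrank_eq)
    {p : ℕ} [Fact p.Prime] (hp2 : p ≠ 2) (S : Finset Nat.Primes) (hpS : pPrime p ∈ S)
    (M : Rep (ZMod p) (AlgebraicClosure ℚ ≃ₐ[ℚ] AlgebraicClosure ℚ))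
    [FiniteDimensional (ZMod p) M]
    (hsm : ∀ m : M, ∃ F : IntermediateField ℚ (AlgebraicClosure ℚ), FiniteDimensional ℚ F ∧
      ∀ s ∈ F.fixingSubgroup, M.ρ s m = m)
    (hMur : ∀ q : Nat.Primes, q ∉ S → ∀ A : ValuationSubring (AlgebraicClosure ℚ),
      A.LiesOverPrime (q : ℕ) → ∀ g ∈ A.inertiaSubgroupIn ℚ, M.ρ g = 1) :
    ∃ B : sha₁ S (M.dualTwist (cycloChar p)) →ₗ[ZMod p] sha₂ S M →ₗ[ZMod p] ZMod p,
      (∀ y, (∀ x, B y x = 0) → y = 0) ∧ (∀ x, (∀ y, B y x = 0) → x = 0) := by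
  have hyp : Hyp p S M := ⟨hp2, hpS, inferInstance, hsm, hMur⟩
  have := h1 p S M hyp
  have := h2 p S M hyp
  exact exists_pairing_of_finrank_eq (heq p S M hyp)

/-- `Ш²` is finite-dimensional as soon as `Ш¹` is and `Ш²` injects into its dual. -/
theorem sha2_finite_of_inj_dual (h1 : Stmt_sha1_finite) (hf : Stmt_sha2_inj_dual) :
    Stmt_sha2_finite := by
  intro p _ S M hyp
  have hV : Module.Finite (ZMod p) (sha₁ S (M.dualTwist (cycloChar p))) := h1 p S M hyp
  obtain ⟨f, hfi⟩ := hf p S M hyp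
  exact Module.Finite.of_injective f hfi

/-- Equality of dimensions from the two injections into duals. -/
theorem finrank_eq_of_inj_dual (h1 : Stmt_sha1_finite) (hf : Stmt_sha2_inj_dual)
    (hg : Stmt_sha1_inj_dual) : Stmt_sha_finrank_eq := by
  intro p _ S M hyp
  have hV : Module.Finite (ZMod p) (sha₁ S (M.dualTwist (cycloChar p))) := h1 p S M hyp
  obtain ⟨f, hfi⟩ := hf p S M hyp
  obtain ⟨g, hgi⟩ := hg p S M hyp
  have hW : Module.Finite (ZMod p) (sha₂ S M) := Module.Finite.of_injective f hfi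
  apply le_antisymm
  · have := LinearMap.finrank_le_finrank_of_injective hgi
    rwa [Subspace.dual_finrank_eq] at this
  · have := LinearMap.finrank_le_finrank_of_injective hfi
    rwa [Subspace.dual_finrank_eq] at this

/-- Level-0 wiring of S55 from finiteness of `Ш¹` and the two injections into duals. -/
theorem result_of_inj_dual (h1 : Stmt_sha1_finite) (hf : Stmt_sha2_inj_dual)
    (hg : Stmt_sha1_inj_dual)
    {p : ℕ} [Fact p.Prime] (hp2 : p ≠ 2) (S : Finset Nat.Primes) (hpS : pPrime p ∈ S)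
    (M : Rep (ZMod p) (AlgebraicClosure ℚ ≃ₐ[ℚ] AlgebraicClosure ℚ))
    [FiniteDimensional (ZMod p) M]
    (hsm : ∀ m : M, ∃ F : IntermediateField ℚ (AlgebraicClosure ℚ), FiniteDimensional ℚ F ∧
      ∀ s ∈ F.fixingSubgroup, M.ρ s m = m)
    (hMur : ∀ q : Nat.Primes, q ∉ S → ∀ A : ValuationSubring (AlgebraicClosure ℚ),
      A.LiesOverPrime (q : ℕ) → ∀ g ∈ A.inertiaSubgroupIn ℚ, M.ρ g = 1) :
    ∃ B : sha₁ S (M.dualTwist (cycloChar p)) →ₗ[ZMod p] sha₂ S M →ₗ[ZMod p] ZMod p,
      (∀ y, (∀ x, B y x = 0) → y = 0) ∧ (∀ x, (∀ y, B y x = 0) → x = 0) :=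
  result_of_finrank_eq h1 (sha2_finite_of_inj_dual h1 hf) (finrank_eq_of_inj_dual h1 hf hg)
    hp2 S hpS M hsm hMur

end Fermat.Agent.S55
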